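/-
S58, task EC-Tors: the number of `n`-torsion points of an elliptic curve over an algebraically
closed field of characteristic `0` is `n²`; divisibility; faithfulness of `E[m]`.

TOOLS: `Fermat/Agent/S13/MulByN.lean` (namespace `Fermat.Agent.S13`?  check the file):
`mulA W n`, `mulB W n : K[X]` with `x(nP) = mulA(x P) / mulB(x P)`:
`rep_nsmul`, `nsmul_eq_zero_iff`, `xc_nsmul`, `mulA_monic`, `natDegree_mulA : natDegree = n²`,
`isCoprime_mulA_mulB`, `mulB_deg` (degree `n² - 1`, leading coefficient `n²`), `exists_point_xc`.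

MATH.
(div) `exists_nsmul_eq`: `Q = 0`: `P = 0`.  Otherwise `c := x(Q)`; `mulA - C c * mulB` is monic of degree
 `n² ≥ 1`, take a root `x₀`; `mulB x₀ ≠ 0` (coprimality), a point `P` with `x(P) = x₀`
 (`exists_point_xc`) has `x(nP) = c`, so `nP = ± Q`; replace `P` by `-P` if necessary.
(card) `A := mulA W n`, `B := mulB W n`, `Wr := A' B - A B'` is a NONZERO polynomial (char. 0: the
 coefficient of `X^(2n²-2)` is `n² * n² - n² (n² - 1) = n²`).  The set of bad values
 `c ∈ {A(x₀)/B(x₀) : Wr(x₀) = 0, B(x₀) ≠ 0} ∪ {c : D2 W c = 0}` is finite, `K` is infinite: choose a good `c` and `Q` with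
 `x(Q) = c`; then `2Q ≠ 0`, i.e. `Q ≠ -Q`.  `A - c B` has `n²` DISTINCT roots (a double root `x₀` has
 `A(x₀) = c B(x₀)`, `A'(x₀) = c B'(x₀)`, so `Wr(x₀) = 0`, and `B(x₀) ≠ 0` by coprimality).  The map
 `P ↦ x(P)` is a bijection from `{P : nP = Q}` to the roots of `A - cB` [injective: `x(P) = x(P')` gives
 `P' = ± P`, and `P' = -P` gives `Q = -Q`; surjective: as in (div)], and `{P : nP = Q}` is a
 coset of `E[n]` (non empty by (div)).
(faith) `dvd_of_kill`: `g := gcd(z, m)`, `g = u z + v m` kills `E[m]`, so `E[m] ⊆ E[g]`, `m² ≤ g²`, `g ∣ m`: `g = m`.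
-/
import Mathlib
import Fermat.Agent.S13.MulByN

set_option autoImplicit false

namespace Fermat.Agent.S58.EC

open WeierstrassCurve WeierstrassCurve.Affine Polynomial
open Fermat.Agent.S05 (xc yc F0 F1 D2)
open Fermat.Agent.S13

variable {K : Type*} [Field K] [IsAlgClosed K] [DecidableEq K] {V : Affine K}

/-- `deg mulB < deg mulA`. -/
theorem Tors_natDegree_mulB_lt (hΔ : V.Δ ≠ 0) (n : ℕ) (hn : 0 < n) :
    (mulB V n).natDegree < (mulA V n).natDegree := by
  rw [natDegree_mulA hΔ]
  obtain ⟨-, -, d, -⟩ := (mul_main hΔ n).1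
  by_cases hB : mulB V n = 0
  · rw [hB, natDegree_zero]; positivity
  · rw [natDegree_X_mul hB] at d
    omega

/-- the fibre polynomial `A - c B`. -/
noncomputable def TorsPol (V : Affine K) (n : ℕ) (c : K) : K[X] := mulA V n - C c * mulB V n

theorem TorsPol_natDegree (hΔ : V.Δ ≠ 0) (n : ℕ) (hn : 0 < n) (c : K) :
    (TorsPol V n c).natDegree = n ^ 2 := by
  rw [TorsPol, natDegree_sub_eq_left_of_natDegree_lt, natDegree_mulA hΔ]
  exact lt_of_le_of_lt (natDegree_C_mul_le _ _) (Tors_natDegree_mulB_lt hΔ n hn)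

omit [IsAlgClosed K] [DecidableEq K] in
theorem TorsPol_eval (n : ℕ) (c x : K) :
    (TorsPol V n c).eval x = (mulA V n).eval x - c * (mulB V n).eval x := by
  simp [TorsPol]

/-- a point above a root of the fibre polynomial of `x(Q)` is sent to `± Q`. -/
theorem Tors_of_root (hΔ : V.Δ ≠ 0) (n : ℕ) {Q : V.Point} (hQ : Q ≠ 0) {x₀ : K}
    (hx : (TorsPol V n (xc Q)).eval x₀ = 0) : ∃ P : V.Point, xc P = x₀ ∧ n • P = Q := by
  obtain ⟨P, hP, rfl⟩ := exists_point_xc hΔ x₀
  rw [TorsPol_eval] at hx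
  rcases rep_nsmul hΔ n hP with ⟨-, h2, h3⟩ | ⟨h1, h2, h3⟩
  · rw [h2, mul_zero, sub_zero] at hx
    exact absurd hx h3
  · have hxc : xc (n • P) = xc Q := by
      rw [h3, ← sub_mul] at hx
      rcases mul_eq_zero.mp hx with h | h
      · exact sub_eq_zero.mp h
      · exact absurd h h2
    rcases S05.eq_or_eq_neg_of_xc_eq h1 hQ hxc with h | h
    · exact ⟨P, rfl, h⟩
    · exact ⟨-P, S05.xc_neg P, by rw [smul_neg, h, neg_neg]⟩

theorem exists_nsmul_eq (hΔ : V.Δ ≠ 0) (n : ℕ) (hn : 0 < n) (Q : V.Point) :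
    ∃ P : V.Point, n • P = Q := by
  by_cases hQ : Q = 0
  · exact ⟨0, by rw [smul_zero, hQ]⟩
  have hdeg : (TorsPol V n (xc Q)).degree ≠ 0 := by
    intro h
    have h1 : (TorsPol V n (xc Q)).natDegree = 0 := natDegree_eq_of_degree_eq_some h
    rw [TorsPol_natDegree hΔ n hn] at h1
    have h2 : 0 < n ^ 2 := by positivity
    omega
  obtain ⟨x₀, hx₀⟩ := IsAlgClosed.exists_root _ hdeg
  obtain ⟨P, -, hP⟩ := Tors_of_root hΔ n hQ hx₀
  exact ⟨P, hP⟩

/-- the Wronskian of `(mulA, mulB)` is non zero in characteristic `0`. -/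
theorem Tors_wronskian_ne_zero [CharZero K] (hΔ : V.Δ ≠ 0) (n : ℕ) (hn : 0 < n) :
    derivative (mulA V n) * mulB V n - mulA V n * derivative (mulB V n) ≠ 0 := by
  intro h
  have hd : mulA V n ∣ derivative (mulA V n) * mulB V n := ⟨_, sub_eq_zero.mp h⟩
  have hd' := (isCoprime_mulA_mulB hΔ n).dvd_of_dvd_mul_right hd
  have hpos : (mulA V n).natDegree ≠ 0 := by
    rw [natDegree_mulA hΔ]; positivity
  have h0 := eq_zero_of_dvd_of_natDegree_lt hd' (natDegree_derivative_lt hpos)
  exact hpos (Polynomial.derivative_eq_zero.mp h0)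

/-- the polynomial `D2`. -/
noncomputable def TorsD2 (V : Affine K) : K[X] :=
  C 4 * X ^ 3 + C V.b₂ * X ^ 2 + C (2 * V.b₄) * X + C V.b₆

omit [IsAlgClosed K] [DecidableEq K] in
theorem TorsD2_eval (x : K) : (TorsD2 V).eval x = D2 V x := by
  simp [TorsD2, D2]

omit [IsAlgClosed K] [DecidableEq K] in
theorem TorsD2_ne_zero [CharZero K] : TorsD2 V ≠ 0 := by
  intro h
  have := congrArg (fun p => coeff p 3) h
  simp [TorsD2] at this

/-- a good value `c`. -/
theorem Tors_exists_good [CharZero K] (hΔ : V.Δ ≠ 0) (n : ℕ) (hn : 0 < n) :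
    ∃ c : K, D2 V c ≠ 0 ∧ (TorsPol V n c).Separable := by
  classical
  set A := mulA V n with hA
  set B := mulB V n with hB
  set Wr := derivative A * B - A * derivative B with hWr
  have hWr0 : Wr ≠ 0 := Tors_wronskian_ne_zero hΔ n hn
  obtain ⟨c, hc⟩ := Infinite.exists_notMem_finset
    ((Wr.roots.toFinset.image fun x => A.eval x / B.eval x) ∪ (TorsD2 V).roots.toFinset)
  rw [Finset.mem_union, not_or] at hc
  obtain ⟨hc1, hc2⟩ := hc
  refine ⟨c, ?_, ?_⟩
  · intro h
    apply hc2
    rw [Multiset.mem_toFinset, mem_roots TorsD2_ne_zero, IsRoot.def, TorsD2_eval, h]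
  · rw [Polynomial.Separable]
    refine (isCoprime_iff_aeval_ne_zero_of_isAlgClosed (k := K) K _ _).mpr ?_
    intro x
    by_contra hcon
    rw [not_or, not_not, not_not] at hcon
    obtain ⟨e1, e2⟩ := hcon
    simp only [coe_aeval_eq_eval] at e1 e2
    rw [TorsPol_eval] at e1
    have e2' : (derivative A).eval x - c * (derivative B).eval x = 0 := by
      simpa [TorsPol] using e2
    have hBx : B.eval x ≠ 0 := by
      intro hb
      rw [← hB, hb, mul_zero, sub_zero] at e1
      have := (isCoprime_iff_aeval_ne_zero_of_isAlgClosed (k := K) K _ _).mp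
        (isCoprime_mulA_mulB hΔ n) x
      simp only [coe_aeval_eq_eval] at this
      rcases this with h | h
      · exact h e1
      · exact h hb
    apply hc1
    rw [Finset.mem_image]
    refine ⟨x, ?_, ?_⟩
    · rw [Multiset.mem_toFinset, mem_roots hWr0, IsRoot.def, hWr]
      simp only [eval_sub, eval_mul]
      linear_combination (B.eval x) * e2' - (derivative B).eval x * e1
    · rw [div_eq_iff hBx]
      linear_combination e1

theorem card_torsion [CharZero K] (hΔ : V.Δ ≠ 0) (n : ℕ) (hn : 0 < n) :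
    Nat.card {P : V.Point // n • P = 0} = n ^ 2 := by
  classical
  obtain ⟨c, hc, hsep⟩ := Tors_exists_good hΔ n hn
  obtain ⟨Q, hQ, rfl⟩ := exists_point_xc hΔ c
  obtain ⟨P₀, hP₀⟩ := exists_nsmul_eq hΔ n hn Q
  have hQQ : Q ≠ -Q := by
    intro h
    have h2 : Q + Q = 0 := by
      nth_rewrite 1 [h]
      exact neg_add_cancel Q
    have := S05.yc_sq Q hQ
    rw [S05.yc_eq_zero_of_add_self h2] at this
    exact hc (by rw [← this]; ring)
  -- translate
  have e1 : Nat.card {P : V.Point // n • P = 0} = Nat.card {P : V.Point // n • P = Q} := by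
    refine Nat.card_congr ⟨fun P => ⟨P.1 + P₀, by rw [smul_add, P.2, hP₀, zero_add]⟩,
      fun P => ⟨P.1 - P₀, by rw [smul_sub, P.2, hP₀, sub_self]⟩, ?_, ?_⟩
    · intro P; ext1; simp
    · intro P; ext1; simp
  have hne : ∀ P : V.Point, n • P = Q → P ≠ 0 := by
    rintro P hP rfl
    rw [smul_zero] at hP
    exact hQ hP.symm
  have hp0 : TorsPol V n (xc Q) ≠ 0 := by
    intro h
    have := TorsPol_natDegree hΔ n hn (xc Q)
    rw [h, natDegree_zero] at this
    have : 0 < n ^ 2 := by positivity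
    omega
  have e2 : Nat.card {P : V.Point // n • P = Q} = Nat.card (TorsPol V n (xc Q)).roots.toFinset := by
    refine Nat.card_congr (Equiv.ofBijective (fun P => ⟨xc P.1, ?_⟩) ⟨?_, ?_⟩)
    · rw [Multiset.mem_toFinset, mem_roots hp0, IsRoot.def, TorsPol_eval]
      have := xc_nsmul hΔ n (hne P.1 P.2) (by rw [P.2]; exact hQ)
      rw [P.2] at this
      rw [this, sub_self]
    · intro P P' h
      have h' : xc P.1 = xc P'.1 := congrArg Subtype.val h
      rcases S05.eq_or_eq_neg_of_xc_eq (hne P.1 P.2) (hne P'.1 P'.2) h' with h1 | h1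
      · exact Subtype.ext h1
      · exfalso
        apply hQQ
        have := P.2
        rw [h1, smul_neg, P'.2] at this
        exact this.symm
    · rintro ⟨x, hx⟩
      rw [Multiset.mem_toFinset, mem_roots hp0, IsRoot.def] at hx
      obtain ⟨P, hP1, hP2⟩ := Tors_of_root hΔ n hQ hx
      exact ⟨⟨P, hP2⟩, Subtype.ext hP1⟩
  rw [e1, e2, Nat.card_eq_finsetCard, Multiset.toFinset_card_of_nodup (nodup_roots hsep),
    ← (IsAlgClosed.splits _).natDegree_eq_card_roots, TorsPol_natDegree hΔ n hn]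

theorem dvd_of_kill [CharZero K] (hΔ : V.Δ ≠ 0) (m : ℕ) (hm : 0 < m) (z : ℤ)
    (h : ∀ P : V.Point, m • P = 0 → z • P = 0) : (m : ℤ) ∣ z := by
  set g := Int.gcd z m with hg
  have hgm : g ∣ m := by
    have := Int.gcd_dvd_right z (m : ℤ)
    exact_mod_cast this
  have hg0 : 0 < g := Nat.pos_of_dvd_of_pos hgm hm
  have hkill : ∀ P : V.Point, m • P = 0 → g • P = 0 := by
    intro P hP
    have e := Int.gcd_eq_gcd_ab z (m : ℤ)
    rw [← natCast_zsmul, hg, e, add_smul, mul_comm, mul_smul, h P hP, smul_zero, mul_comm,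
      mul_smul, natCast_zsmul, hP, smul_zero, add_zero]
  have hfin : Finite {P : V.Point // g • P = 0} := by
    apply Nat.finite_of_card_ne_zero
    rw [card_torsion hΔ g hg0]
    positivity
  have hle : Nat.card {P : V.Point // m • P = 0} ≤ Nat.card {P : V.Point // g • P = 0} :=
    Nat.card_le_card_of_injective (fun P => ⟨P.1, hkill P.1 P.2⟩) (by
      intro P P' hPP
      have h1 : P.1 = P'.1 := by
        simpa using hPP
      exact Subtype.ext h1)
  rw [card_torsion hΔ m hm, card_torsion hΔ g hg0] at hle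
  have hmg : m ≤ g := by
    by_contra hlt
    rw [not_le] at hlt
    nlinarith
  have : g = m := le_antisymm (Nat.le_of_dvd hm hgm) hmg
  rw [← this]
  exact Int.gcd_dvd_left z (m : ℤ)

end Fermat.Agent.S58.EC
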