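/-
S58, tasks EC-FQ2a / EC-FQ2b: the quadratic relation of Frobenius in CHARACTERISTIC 2, `q = 2`.

`Fermat/Agent/S52/FrobQuad.lean` proves `2 (π² - t π + p) = 0` on `W₀(K)` for `p` ODD.  Only
`S52/FrobSeedPoly.lean` (`exists_xrat_frob_sub_id`) and `S52/FrobSeed.lean` (`hasDeg_frob_sub_id`) use `2 ≠ 0`; everything else
(`XRat`, `HasDeg`, `HasDeg.add`, `lattice_deg`, `FQ.core`, `hasDeg_frob`, `card_fixed_frobPt`, `isFrob_frobPt`) is characteristic free.
THIS FILE = port of these two theorems to `char K = 2`, `q = 2`, coefficients in `𝔽₂` (`aᵢ² = aᵢ`).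

NOTATION.  `f = X³ + a₂X² + a₄X + a₆`, `d = 1 + a₃ + a₁X`, `c = f + a₁X + a₃`, `s = X² + X` (`= X^q - X`),
  `rp2 = c² + d² f + a₁ s c + (s + a₂) s²`     (numerator of `x(ΦP - P)`, denominator `s²`),
  `rm2 = f² + d² f + a₁ s f + (s + a₂) s²`     (numerator of `x(ΦP + P)`).
For `P = (x,y)`: `y² = f(x) + (a₁x + a₃) y`;  `n₋ := y² + y + a₁x + a₃ = c(x) + d(x) y` is the numerator of the slope of the chord through
`ΦP = (x²,y²)` and `-P = (x, y + a₁x + a₃)`;  `n₊ := y² + y = f(x) + d(x) y`.  Then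
  `n₋² + a₁ n₋ s = c² + d² f + a₁ s c + y d [d (a₁x + a₃) + a₁ s]` and `d (a₁x+a₃) + a₁ s = (a₃ + a₃²) + (a₁ + a₁²) x² = 0`   (char 2, `aᵢ² = aᵢ`),
so `rp2(x) = n₋² + a₁ n₋ s - (a₂ + x² + x) s²`, and in the same way `rm2(x) = n₊² + a₁ n₊ s - (a₂ + x² + x) s²`.
(1) `rp2` is monic of degree `5`: the `X⁶` cancel, the coefficient of `X⁵` is `a₁ + a₁ + 1 = 1`.
(2) POINTWISE (`Ψ = Φ - id`, `P = (x,y)`): `px (ΨP) * s(x)² = pz (ΨP) * rp2(x)` and `px (ΨP) * rm2(x) = pz (ΨP) * S0(x)`, `S0 = fsS0 W 2`.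
   General fact (any characteristic), for nonzero points `P₁ = (x₁,y₁)`, `P₂ = (x₂,y₂)`, `n := y₁ - negY x₂ y₂`, `n' := y₁ - y₂`, `δ = x₁ - x₂`:
     (a) `px (P₁ - P₂) * δ² = pz (P₁ - P₂) * (n² + a₁ n δ - (a₂ + x₁ + x₂) δ²)`,
     (b) `px (P₁ - P₂) * (n'² + a₁ n' δ - (a₂ + x₁ + x₂) δ²) = pz (P₁ - P₂) * T0 b₄ b₆ b₈ (x₁x₂) (x₁+x₂) 1`.
   `δ ≠ 0`: addition formula, and `S05.xc_add_mul_xc_sub` for (b).  `δ = 0`, `P₁ = P₂`: `pz = 0`, `n' = 0`.  `δ = 0`, `P₁ = -P₂ ≠ P₂`: `n = 0`; `n' = yc P₁`, `P₁ - P₂ = 2P₁`: duplication formula `S05.xc_add_self` (cf. the proof of `S52.signed_addSub`).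
(3) not all of `s(x)², rp2(x), rm2(x), S0(x)` vanish: `rp2(x) + rm2(x) = fsS1(x)` (from (2)-type formulas or directly), then `DivPoly.T_ne_zero` as in S52.
(4) the rest of `exists_xrat_frob_sub_id` is VERBATIM the proof in `S52/FrobSeedPoly.lean`.
(5) COUNT: verbatim `S52/FrobSeed.lean`, with: at a nonzero fixed point `P = (x,y)` (`x² = x`, `y² = y`): `rp2(x) = n₋² = (a₁x + a₃)² = yc(P)²`; and `-P = P ↔ yc P = 0` (true in every characteristic: `negY x y = y ↔ 2y + a₁x + a₃ = 0`).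
-/
import Mathlib
import Fermat.Agent.S52.FrobQuad
import Fermat.Agent.S13.LocDefs

set_option autoImplicit false

namespace Fermat.Agent.S58.EC

open WeierstrassCurve WeierstrassCurve.Affine Polynomial
open Fermat.Agent.S52 (XRat HasDeg IsFrob frobPt)
open Fermat.Agent.S13.Loc (yy)

section

variable {K : Type*} [Field K]

/-- numerator of `x(ΦP - P)` -/
noncomputable def rp2 (W : Affine K) : K[X] :=
  (X ^ 3 + C W.a₂ * X ^ 2 + C W.a₄ * X + C W.a₆ + C W.a₁ * X + C W.a₃) ^ 2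
    + (1 + C W.a₃ + C W.a₁ * X) ^ 2 * (X ^ 3 + C W.a₂ * X ^ 2 + C W.a₄ * X + C W.a₆)
    + C W.a₁ * (X ^ 2 + X) * (X ^ 3 + C W.a₂ * X ^ 2 + C W.a₄ * X + C W.a₆ + C W.a₁ * X + C W.a₃)
    + (X ^ 2 + X + C W.a₂) * (X ^ 2 + X) ^ 2

/-- the coefficients lie in `𝔽₂` -/
structure CoeffF2 (W : Affine K) : Prop where
  a₁ : W.a₁ ^ 2 = W.a₁
  a₂ : W.a₂ ^ 2 = W.a₂
  a₃ : W.a₃ ^ 2 = W.a₃
  a₄ : W.a₄ ^ 2 = W.a₄
  a₆ : W.a₆ ^ 2 = W.a₆

/-- numerator of `x(ΦP + P)` (helper for task EC-FQ2a) -/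
noncomputable def fq2aRm2 (W : Affine K) : K[X] :=
  (X ^ 3 + C W.a₂ * X ^ 2 + C W.a₄ * X + C W.a₆) ^ 2
    + (1 + C W.a₃ + C W.a₁ * X) ^ 2 * (X ^ 3 + C W.a₂ * X ^ 2 + C W.a₄ * X + C W.a₆)
    + C W.a₁ * (X ^ 2 + X) * (X ^ 3 + C W.a₂ * X ^ 2 + C W.a₄ * X + C W.a₆)
    + (X ^ 2 + X + C W.a₂) * (X ^ 2 + X) ^ 2

open Fermat.Agent.DivPoly (px pz T0 T1 T2) in
open Fermat.Agent.S05 (xc yc) in
/-- general two-point fact (any characteristic), helper for task EC-FQ2a -/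
lemma fq2a_two_point [DecidableEq K] {W : Affine K}
    {x₁ y₁ x₂ y₂ : K} (h₁ : W.Nonsingular x₁ y₁) (h₂ : W.Nonsingular x₂ y₂) :
    px (Point.some x₁ y₁ h₁ - Point.some x₂ y₂ h₂) * (x₁ - x₂) ^ 2
      = pz (Point.some x₁ y₁ h₁ - Point.some x₂ y₂ h₂) *
        ((y₁ - W.negY x₂ y₂) ^ 2 + W.a₁ * (y₁ - W.negY x₂ y₂) * (x₁ - x₂)
          - (W.a₂ + x₁ + x₂) * (x₁ - x₂) ^ 2) ∧
    px (Point.some x₁ y₁ h₁ - Point.some x₂ y₂ h₂) *
        ((y₁ - y₂) ^ 2 + W.a₁ * (y₁ - y₂) * (x₁ - x₂) - (W.a₂ + x₁ + x₂) * (x₁ - x₂) ^ 2)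
      = pz (Point.some x₁ y₁ h₁ - Point.some x₂ y₂ h₂) *
        T0 W.b₄ W.b₆ W.b₈ (x₁ * x₂) (x₁ + x₂) 1 := by
  by_cases hx : x₁ = x₂
  · subst hx
    by_cases hy : y₁ = y₂
    · subst hy
      rw [sub_self]
      simp
    · have hy' : y₁ = W.negY x₁ y₂ := (Y_eq_of_X_eq h₁.1 h₂.1 rfl).resolve_left hy
      have hP2 : (Point.some x₁ y₂ h₂ : W.Point) = - Point.some x₁ y₁ h₁ := by
        rw [Point.neg_some]
        congr 1
        rw [hy', negY_negY]
      rw [hP2, sub_neg_eq_add]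
      refine ⟨by rw [← hy']; ring, ?_⟩
      have hP : (Point.some x₁ y₁ h₁ : W.Point) ≠ 0 := Point.some_ne_zero _
      have hyc : y₁ - y₂ = yc (Point.some x₁ y₁ h₁ : W.Point) := by
        have : y₂ = W.negY x₁ y₁ := by rw [hy', negY_negY]
        rw [this]
        simp only [Fermat.Agent.S05.yc_some, negY]; ring
      by_cases h2 : (Point.some x₁ y₁ h₁ : W.Point) + Point.some x₁ y₁ h₁ = 0
      · have hy0 := Fermat.Agent.S05.yc_eq_zero_of_add_self h2
        rw [h2, hyc, hy0]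
        simp
      · rw [Fermat.Agent.DivPoly.px_of_ne h2, Fermat.Agent.DivPoly.pz_of_ne h2, hyc]
        have e := Fermat.Agent.S05.xc_add_self h2
        rw [← Fermat.Agent.S05.yc_sq _ hP] at e
        simp only [Fermat.Agent.S05.F0, Fermat.Agent.S05.xc_some] at e
        simp only [T0]
        linear_combination e
  · have hP : (Point.some x₁ y₁ h₁ : W.Point) ≠ 0 := Point.some_ne_zero _
    have hQ : (Point.some x₂ y₂ h₂ : W.Point) ≠ 0 := Point.some_ne_zero _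
    have e0 := Fermat.Agent.S05.xc_add_mul_xc_sub hP hQ (by simpa using hx)
    have hsub : (Point.some x₁ y₁ h₁ : W.Point) - Point.some x₂ y₂ h₂ ≠ 0 := by
      intro h
      apply hx
      have := congrArg xc (sub_eq_zero.mp h)
      simpa using this
    rw [Fermat.Agent.DivPoly.px_of_ne hsub, Fermat.Agent.DivPoly.pz_of_ne hsub]
    have hd : x₁ - x₂ ≠ 0 := sub_ne_zero.mpr hx
    have ea : xc ((Point.some x₁ y₁ h₁ : W.Point) + Point.some x₂ y₂ h₂) * (x₁ - x₂) ^ 2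
        = (y₁ - y₂) ^ 2 + W.a₁ * (y₁ - y₂) * (x₁ - x₂) - (W.a₂ + x₁ + x₂) * (x₁ - x₂) ^ 2 := by
      rw [Point.add_of_X_ne hx]
      simp only [Fermat.Agent.S05.xc_some, addX, slope_of_X_ne hx]
      field_simp
      ring
    have es : xc ((Point.some x₁ y₁ h₁ : W.Point) - Point.some x₂ y₂ h₂) * (x₁ - x₂) ^ 2
        = (y₁ - W.negY x₂ y₂) ^ 2 + W.a₁ * (y₁ - W.negY x₂ y₂) * (x₁ - x₂)
          - (W.a₂ + x₁ + x₂) * (x₁ - x₂) ^ 2 := by
      rw [sub_eq_add_neg, Point.neg_some, Point.add_of_X_ne hx]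
      simp only [Fermat.Agent.S05.xc_some, addX, slope_of_X_ne hx]
      field_simp
      ring
    simp only [Fermat.Agent.S05.F0, Fermat.Agent.S05.xc_some] at e0
    refine ⟨by rw [es, one_mul], ?_⟩
    rw [← ea]
    simp only [T0]
    linear_combination e0

/-- `rp2(x) = n₋² + a₁ n₋ δ - (a₂ + x² + x) δ²` (helper for task EC-FQ2a) -/
lemma fq2a_eval_rp2 [CharP K 2] {W : Affine K} (hW : CoeffF2 W) {x y : K} (h : W.Equation x y) :
    (rp2 W).eval x = (y ^ 2 - W.negY x y) ^ 2 + W.a₁ * (y ^ 2 - W.negY x y) * (x ^ 2 - x)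
      - (W.a₂ + x ^ 2 + x) * (x ^ 2 - x) ^ 2 := by
  have e := (equation_iff ..).mp h
  have h1 := hW.a₁
  have h3 := hW.a₃
  simp only [rp2, negY, eval_add, eval_mul, eval_pow, eval_X, eval_C, eval_one]
  generalize W.a₁ = a₁ at *
  generalize W.a₂ = a₂ at *
  generalize W.a₃ = a₃ at *
  generalize W.a₄ = a₄ at *
  generalize W.a₆ = a₆ at *
  linear_combination (norm := (ring_nf; reduce_mod_char!))
    ((y ^ 2 + a₁ * x * y + a₃ * y - (x ^ 3 + a₂ * x ^ 2 + a₄ * x + a₆)) + (1 + a₃ + a₁ * x) ^ 2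
      + a₁ * (x ^ 2 + x)) * e + y * (1 + a₃ + a₁ * x) * h3 + y * (1 + a₃ + a₁ * x) * x ^ 2 * h1

/-- `rm2(x) = n₊² + a₁ n₊ δ - (a₂ + x² + x) δ²` (helper for task EC-FQ2a) -/
lemma fq2a_eval_rm2 [CharP K 2] {W : Affine K} (hW : CoeffF2 W) {x y : K} (h : W.Equation x y) :
    (fq2aRm2 W).eval x = (y ^ 2 - y) ^ 2 + W.a₁ * (y ^ 2 - y) * (x ^ 2 - x)
      - (W.a₂ + x ^ 2 + x) * (x ^ 2 - x) ^ 2 := by
  have e := (equation_iff ..).mp h
  have h1 := hW.a₁
  have h3 := hW.a₃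
  simp only [fq2aRm2, eval_add, eval_mul, eval_pow, eval_X, eval_C, eval_one]
  generalize W.a₁ = a₁ at *
  generalize W.a₂ = a₂ at *
  generalize W.a₃ = a₃ at *
  generalize W.a₄ = a₄ at *
  generalize W.a₆ = a₆ at *
  linear_combination (norm := (ring_nf; reduce_mod_char!))
    ((y ^ 2 + a₁ * x * y + a₃ * y - (x ^ 3 + a₂ * x ^ 2 + a₄ * x + a₆)) + (1 + a₃ + a₁ * x) ^ 2
      + a₁ * (x ^ 2 + x)) * e + y * (1 + a₃ + a₁ * x) * h3 + y * (1 + a₃ + a₁ * x) * x ^ 2 * h1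

/-- `rp2 + rm2 = S1` (helper for task EC-FQ2a) -/
lemma fq2a_eval_add [CharP K 2] (W : Affine K) (x : K) :
    (Fermat.Agent.S52.fsS1 W 2).eval x = (rp2 W).eval x + (fq2aRm2 W).eval x := by
  rw [Fermat.Agent.S52.FS1.eval_fsS1]
  simp only [rp2, fq2aRm2, Fermat.Agent.DivPoly.T1, b₂, b₄, b₆, eval_add, eval_mul, eval_pow,
    eval_X, eval_C, eval_one]
  generalize W.a₁ = a₁ at *
  generalize W.a₂ = a₂ at *
  generalize W.a₃ = a₃ at *
  generalize W.a₄ = a₄ at *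
  generalize W.a₆ = a₆ at *
  rw [← sub_eq_zero]
  ring_nf
  reduce_mod_char!

/-- `rp2` is monic of degree `5` (helper for task EC-FQ2a) -/
lemma fq2a_monic_rp2 [CharP K 2] {W : Affine K} (hW : CoeffF2 W) :
    (rp2 W).Monic ∧ (rp2 W).natDegree = 5 := by
  have hchar : CharP K[X] 2 := inferInstance
  have h1 : (C W.a₁ : K[X]) ^ 2 = C W.a₁ := by rw [← C_pow, hW.a₁]
  set R : K[X] := (C W.a₂ * X ^ 2 + C W.a₄ * X + C W.a₆ + C W.a₁ * X + C W.a₃) ^ 2
    + (1 + C W.a₃) ^ 2 * X ^ 3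
    + (1 + C W.a₃ + C W.a₁ * X) ^ 2 * (C W.a₂ * X ^ 2 + C W.a₄ * X + C W.a₆)
    + C W.a₁ * X ^ 4
    + C W.a₁ * (X ^ 2 + X) * (C W.a₂ * X ^ 2 + C W.a₄ * X + C W.a₆ + C W.a₁ * X + C W.a₃)
    + X ^ 4 + X ^ 3 + C W.a₂ * (X ^ 2 + X) ^ 2 with hR
  have heq : rp2 W = X ^ 5 + R := by
    rw [hR, rp2]
    generalize (C W.a₁ : K[X]) = a₁ at *
    generalize (C W.a₂ : K[X]) = a₂ at *
    generalize (C W.a₃ : K[X]) = a₃ at *
    generalize (C W.a₄ : K[X]) = a₄ at *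
    generalize (C W.a₆ : K[X]) = a₆ at *
    linear_combination (norm := (ring_nf; reduce_mod_char!)) X ^ 5 * h1
  have hRd : R.natDegree < 5 := by
    have : R.natDegree ≤ 4 := by
      rw [hR]
      compute_degree
    omega
  have hX : (X ^ 5 : K[X]).natDegree = 5 := natDegree_X_pow _
  rw [heq]
  refine ⟨(monic_X_pow _).add_of_left (degree_lt_degree (by rw [hX]; exact hRd)), ?_⟩
  rw [natDegree_add_eq_left_of_natDegree_lt (by rw [hX]; exact hRd), hX]

open Fermat.Agent.DivPoly Fermat.Agent.S52 in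
/-- task EC-FQ2a -/
theorem exists_xrat_frob_sub_id_two [DecidableEq K] [IsAlgClosed K] [CharP K 2] {W : Affine K}
    (hΔ : W.Δ ≠ 0) (hW : CoeffF2 W) {Φ : W.Point → W.Point} (hΦ : IsFrob W 2 Φ)
    (hΦy : ∀ P, yy (Φ P) = yy P ^ 2) :
    (rp2 W).Monic ∧ (rp2 W).natDegree = 5 ∧
    ∃ F G : K[X], XRat W (Φ - id) F.natDegree F G ∧ F * (X ^ 2 - X) ^ 2 = G * rp2 W := by
  obtain ⟨hmon, hdeg⟩ := fq2a_monic_rp2 hW
  refine ⟨hmon, hdeg, ?_⟩
  set S2 : K[X] := (X ^ 2 - X) ^ 2 with hS2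
  set Ψ : W.Point → W.Point := Φ - id with hΨ
  -- pointwise relations
  have pw : ∀ (x y : K) (h : W.Nonsingular x y),
      px (Ψ (Point.some x y h)) * S2.eval x
        = pz (Ψ (Point.some x y h)) * (rp2 W).eval x ∧
      px (Ψ (Point.some x y h)) * (fq2aRm2 W).eval x
        = pz (Ψ (Point.some x y h)) * (fsS0 W 2).eval x := by
    intro x y h
    have hP : (Point.some x y h : W.Point) ≠ 0 := Point.some_ne_zero _
    have hne : Φ (Point.some x y h) ≠ 0 := hΦ.ne_zero _ hP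
    obtain ⟨x', y', h', hΦP⟩ : ∃ x' y', ∃ h' : W.Nonsingular x' y',
        Φ (Point.some x y h) = Point.some x' y' h' := by
      rcases hP' : Φ (Point.some x y h) with _ | ⟨x', y', h'⟩
      · exact absurd hP' hne
      · exact ⟨x', y', h', rfl⟩
    have hx' : x' = x ^ 2 := by
      have := hΦ.xc (Point.some x y h)
      rw [hΦP] at this
      simpa using this
    have hy' : y' = y ^ 2 := by
      have := hΦy (Point.some x y h)
      rw [hΦP] at this
      simpa using this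
    subst hx' hy'
    obtain ⟨e1, e2⟩ := fq2a_two_point h' h
    have hsub : Ψ (Point.some x y h) = Φ (Point.some x y h) - Point.some x y h := rfl
    rw [hsub, hΦP, fq2a_eval_rp2 hW h.1, fq2a_eval_rm2 hW h.1, FS1.eval_fsS0]
    refine ⟨?_, e2⟩
    rw [← e1]
    simp only [hS2, eval_pow, eval_sub, eval_X]
  -- not all four vanish
  have nz : ∀ x : K, ¬ (S2.eval x = 0 ∧ (rp2 W).eval x = 0 ∧ (fq2aRm2 W).eval x = 0 ∧
      (fsS0 W 2).eval x = 0) := by
    rintro x ⟨z2, zp, zm, z0⟩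
    have z1 : (fsS1 W 2).eval x = 0 := by
      rw [fq2a_eval_add, zp, zm, add_zero]
    have hT2 : T2 (x ^ 2 * x) (x ^ 2 + x) 1 = 0 := by
      rw [← z2]
      simp only [hS2, T2, eval_pow, eval_sub, eval_X]; ring
    rw [FS1.eval_fsS0] at z0
    rw [FS1.eval_fsS1] at z1
    exact one_ne_zero (T_ne_zero W hΔ z0 z1 hT2).2.2
  -- the polynomial identity
  have hprod : rp2 W * fq2aRm2 W = fsS0 W 2 * S2 := by
    apply Polynomial.funext
    intro x
    obtain ⟨y, h⟩ := exists_point' W hΔ x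
    obtain ⟨e1, e2⟩ := pw x y h
    have hab := px_pz_ne_zero (Ψ (Point.some x y h))
    set a := px (Ψ (Point.some x y h))
    set b := pz (Ψ (Point.some x y h))
    rw [eval_mul, eval_mul]
    have hA : a * ((rp2 W).eval x * (fq2aRm2 W).eval x - (fsS0 W 2).eval x * S2.eval x) = 0 := by
      linear_combination (rp2 W).eval x * e2 - (fsS0 W 2).eval x * e1
    have hB : b * ((rp2 W).eval x * (fq2aRm2 W).eval x - (fsS0 W 2).eval x * S2.eval x) = 0 := by
      linear_combination (-(fq2aRm2 W).eval x) * e1 + S2.eval x * e2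
    by_cases ha : a = 0
    · have hb : b ≠ 0 := fun hb => hab ⟨ha, hb⟩
      exact sub_eq_zero.mp ((mul_eq_zero.mp hB).resolve_left hb)
    · exact sub_eq_zero.mp ((mul_eq_zero.mp hA).resolve_left ha)
  obtain ⟨g, F, G, hF, hG, hFm, hcop, hg0⟩ := FS1.exists_reduced (p := rp2 W) (s := S2) hmon
  have r1 : F * S2 = G * rp2 W := by rw [hF, hG]; ring
  have r2 : F * fq2aRm2 W = G * fsS0 W 2 := by
    apply mul_left_cancel₀ hg0
    have := hprod
    rw [hF, hG] at this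
    linear_combination this
  have hXq : (X ^ 2 - X : K[X]).Monic := by
    apply monic_X_pow_sub
    rw [degree_X]
    norm_num
  have hXqd : (X ^ 2 - X : K[X]).natDegree = 2 := by
    rw [natDegree_sub_eq_left_of_natDegree_lt (by rw [natDegree_X, natDegree_X_pow]; norm_num),
      natDegree_X_pow]
  have hS2m : S2.Monic := hXq.pow 2
  have hS2d : S2.natDegree = 2 * 2 := by rw [hS2, hXq.natDegree_pow, hXqd]
  have hG0 : G ≠ 0 := by
    rintro rfl
    rw [mul_zero] at hG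
    exact hS2m.ne_zero hG
  have hdegs : F.natDegree + 2 * 2 = G.natDegree + 5 := by
    have := congrArg natDegree r1
    rw [hFm.natDegree_mul hS2m, natDegree_mul hG0 hmon.ne_zero, hS2d, hdeg] at this
    exact this
  refine ⟨F, G, ⟨hFm, rfl, ?_, ?_, ?_, ?_⟩, r1⟩
  · rw [degree_eq_natDegree hG0]
    norm_cast
    omega
  · rintro x ⟨hx1, hx2⟩
    obtain ⟨u, v, huv⟩ := hcop
    have := congrArg (eval x) huv
    simp [hx1, hx2] at this
  · show Φ 0 - id 0 = 0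
    rw [hΦ.map_zero]; simp
  · intro x y h
    obtain ⟨e1, e2⟩ := pw x y h
    have hab := px_pz_ne_zero (Ψ (Point.some x y h))
    set a := px (Ψ (Point.some x y h))
    set b := pz (Ψ (Point.some x y h))
    have f1 : F.eval x * S2.eval x = G.eval x * (rp2 W).eval x := by
      rw [← eval_mul, r1, eval_mul]
    have f2 : F.eval x * (fq2aRm2 W).eval x = G.eval x * (fsS0 W 2).eval x := by
      rw [← eval_mul, r2, eval_mul]
    have hFG : ¬ (F.eval x = 0 ∧ G.eval x = 0) := by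
      rintro ⟨hx1, hx2⟩
      obtain ⟨u, v, huv⟩ := hcop
      have := congrArg (eval x) huv
      simp [hx1, hx2] at this
    apply FS1.prop_of_det hFG hab
    have d1 : (F.eval x * b - G.eval x * a) * S2.eval x = 0 := by
      linear_combination b * f1 - G.eval x * e1
    have d2 : (F.eval x * b - G.eval x * a) * (rp2 W).eval x = 0 := by
      linear_combination a * f1 - F.eval x * e1
    have d3 : (F.eval x * b - G.eval x * a) * (fq2aRm2 W).eval x = 0 := by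
      linear_combination b * f2 - G.eval x * e2
    have d4 : (F.eval x * b - G.eval x * a) * (fsS0 W 2).eval x = 0 := by
      linear_combination a * f2 - F.eval x * e2
    by_contra hne
    have hne' : F.eval x * b - G.eval x * a ≠ 0 := fun h => hne (sub_eq_zero.mp h)
    exact nz x ⟨(mul_eq_zero.mp d1).resolve_left hne', (mul_eq_zero.mp d2).resolve_left hne',
      (mul_eq_zero.mp d3).resolve_left hne', (mul_eq_zero.mp d4).resolve_left hne'⟩

namespace FQ2b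

open Fermat.Agent.S05 (xc yc)

/-- (any characteristic) `-P = P ↔ 2y + a₁x + a₃ = 0`. -/
lemma neg_eq_self_iff [DecidableEq K] {W : Affine K} {P : W.Point} (hP : P ≠ 0) :
    -P = P ↔ yc P = 0 := by
  rcases P with _ | ⟨x, y, h⟩
  · exact absurd rfl hP
  · rw [Point.neg_some, Point.some.injEq, Fermat.Agent.S05.yc_some, Affine.negY]
    constructor
    · rintro ⟨-, h1⟩
      linear_combination -h1
    · intro h1
      exact ⟨rfl, by linear_combination -h1⟩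

lemma neg_ne_zero' [DecidableEq K] {W : Affine K} {P : W.Point} (hP : P ≠ 0) : -P ≠ 0 := by
  rcases P with _ | ⟨x₁, y₁, h₁⟩
  · exact absurd rfl hP
  · exact Point.some_ne_zero _

/-- value of `rp2` at the `x`-coordinate of a fixed point. -/
lemma eval_rp2 {W : Affine K} (h2 : (2 : K) = 0) (hW : CoeffF2 W) {P : W.Point} (hP : P ≠ 0)
    (hx : xc P ^ 2 = xc P) (hy : yy P ^ 2 = yy P) : (rp2 W).eval (xc P) = yc P ^ 2 := by
  rcases P with _ | ⟨x, y, h⟩
  · exact absurd rfl hP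
  simp only [Fermat.Agent.S05.xc_some, Fermat.Agent.S13.Loc.yy_some,
    Fermat.Agent.S05.yc_some] at hx hy ⊢
  have heq := (Affine.equation_iff ..).mp h.1
  obtain ⟨u, hu⟩ : ∃ u : K, u = W.a₁ * x + W.a₃ := ⟨_, rfl⟩
  obtain ⟨f, hf⟩ : ∃ f : K, f = x ^ 3 + W.a₂ * x ^ 2 + W.a₄ * x + W.a₆ := ⟨_, rfl⟩
  obtain ⟨s, hs⟩ : ∃ s : K, s = x ^ 2 + x := ⟨_, rfl⟩
  have hs0 : s = 0 := by rw [hs]; linear_combination hx + x * h2
  have hfy : f = y + u * y := by rw [hf, hu]; linear_combination hy - heq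
  have huu : u ^ 2 = u := by
    rw [hu]
    linear_combination x ^ 2 * hW.a₁ + W.a₁ * hx + W.a₁ * W.a₃ * x * h2 + hW.a₃
  have hev : (rp2 W).eval x = (f + u) ^ 2 + (1 + u) ^ 2 * f + W.a₁ * s * (f + u)
      + (s + W.a₂) * s ^ 2 := by
    rw [hf, hu, hs]
    simp only [rp2, eval_add, eval_mul, eval_pow, eval_X, eval_C, eval_one]
    ring
  have hyc : 2 * y + W.a₁ * x + W.a₃ = 2 * y + u := by rw [hu]; ring
  rw [hev, hyc, hs0, hfy]
  linear_combination (1 + u) ^ 2 * hy + y * (1 + u) * huu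
    + (y * (1 + u) ^ 2 + 2 * y * (1 + u) * u - 2 * y ^ 2 - 2 * y * u) * h2

end FQ2b

open Fermat.Agent.S05 (xc yc) in
/-- task EC-FQ2b -/
theorem hasDeg_frob_sub_id_two [DecidableEq K] [IsAlgClosed K] [CharP K 2] {W : Affine K}
    (hΔ : W.Δ ≠ 0) (hW : CoeffF2 W) {Φ : W.Point → W.Point} (hΦ : IsFrob W 2 Φ)
    (hΦy : ∀ P, yy (Φ P) = yy P ^ 2) :
    HasDeg W (Φ - id) (Nat.card {P : W.Point // Φ P = P}) := by
  classical
  have h2 : (2 : K) = 0 := by
    have h := CharP.cast_eq_zero K 2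
    exact_mod_cast h
  obtain ⟨hRm, hRd, F, G, hX, hFG⟩ := exists_xrat_frob_sub_id_two hΔ hW hΦ hΦy
  suffices hcard : F.natDegree = Nat.card {P : W.Point // Φ P = P} by
    rw [← hcard]; exact ⟨F, G, hX⟩
  have hsep : (X ^ 2 - X : K[X]).Separable := galois_poly_separable 2 2 (dvd_refl 2)
  have hF0 : F ≠ 0 := hX.monic.ne_zero
  have hQ0 : (X ^ 2 - X : K[X]) ≠ 0 := FiniteField.X_pow_card_sub_X_ne_zero K one_lt_two
  have hQd : (X ^ 2 - X : K[X]).natDegree = 2 :=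
    FiniteField.X_pow_card_sub_X_natDegree_eq K one_lt_two
  have hL0 : F * (X ^ 2 - X) ^ 2 ≠ 0 := mul_ne_zero hF0 (pow_ne_zero 2 hQ0)
  have hG0 : G ≠ 0 := by
    rintro rfl
    rw [zero_mul] at hFG
    exact hL0 hFG
  have hR0 : rp2 W ≠ 0 := hRm.ne_zero
  -- degrees
  have hdeg : F.natDegree = G.natDegree + 1 := by
    have h := congrArg natDegree hFG
    rw [natDegree_mul hF0 (pow_ne_zero 2 hQ0), natDegree_mul hG0 hR0, natDegree_pow, hQd, hRd] at h
    omega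
  -- fixed points and roots of `G`
  have hfix : ∀ P : W.Point, P ≠ 0 → (G.eval (xc P) = 0 ↔ Φ P = P) := by
    intro P hP
    rcases P with _ | ⟨x, y, h⟩
    · exact absurd rfl hP
    obtain ⟨c, hc, -, hG⟩ := hX.rep x y h
    rw [Fermat.Agent.S05.xc_some, hG, mul_eq_zero, or_iff_right hc,
      Fermat.Agent.DivPoly.pz_eq_zero_iff, Pi.sub_apply, id, sub_eq_zero]
  -- a chosen point above each `x`
  have hpt : ∀ x : K, ∃ P : W.Point, P ≠ 0 ∧ xc P = x := by
    intro x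
    obtain ⟨y, hy⟩ := Fermat.Agent.DivPoly.exists_point' W hΔ x
    exact ⟨Point.some x y hy, Point.some_ne_zero _, rfl⟩
  choose pt hpt0 hptx using hpt
  -- multiplicities
  have hmult : ∀ x ∈ G.roots.toFinset,
      ({pt x, -pt x} : Finset W.Point).card = G.roots.count x := by
    intro x hx
    rw [Multiset.mem_toFinset, mem_roots hG0, IsRoot.def] at hx
    have hPfix : Φ (pt x) = pt x := (hfix _ (hpt0 x)).mp (by rw [hptx]; exact hx)
    have hxq : xc (pt x) ^ 2 = xc (pt x) := by rw [← hΦ.xc, hPfix]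
    have hyq : yy (pt x) ^ 2 = yy (pt x) := by rw [← hΦy, hPfix]
    have hRx := FQ2b.eval_rp2 h2 hW (hpt0 x) hxq hyq
    rw [hptx] at hRx hxq
    have hFx : F.eval x ≠ 0 := fun h => hX.noroot x ⟨h, hx⟩
    have hQroot : (X ^ 2 - X : K[X]).IsRoot x := by
      rw [IsRoot.def, eval_sub, eval_pow, eval_X, hxq, sub_self]
    have hQm : rootMultiplicity x (X ^ 2 - X : K[X]) = 1 :=
      le_antisymm (rootMultiplicity_le_one_of_separable hsep x)
        ((rootMultiplicity_pos hQ0).mpr hQroot)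
    have hm := congrArg (rootMultiplicity x) hFG
    rw [rootMultiplicity_mul hL0, pow_two, rootMultiplicity_mul (mul_ne_zero hQ0 hQ0), hQm,
      rootMultiplicity_eq_zero (show ¬ IsRoot F x from hFx),
      rootMultiplicity_mul (mul_ne_zero hG0 hR0)] at hm
    have hGm : 0 < rootMultiplicity x G := (rootMultiplicity_pos hG0).mpr hx
    rw [count_roots]
    by_cases hy : yc (pt x) = 0
    · have hRroot : (rp2 W).IsRoot x := by rw [IsRoot.def, hRx, hy]; ring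
      have hRm' : 0 < rootMultiplicity x (rp2 W) := (rootMultiplicity_pos hR0).mpr hRroot
      have heq : -pt x = pt x := (FQ2b.neg_eq_self_iff (hpt0 x)).2 hy
      rw [heq, Finset.pair_eq_singleton, Finset.card_singleton]
      omega
    · have hRroot : ¬ (rp2 W).IsRoot x := by
        rw [IsRoot.def, hRx]; exact pow_ne_zero 2 hy
      rw [rootMultiplicity_eq_zero hRroot] at hm
      have hne : pt x ≠ -pt x := fun h => hy ((FQ2b.neg_eq_self_iff (hpt0 x)).1 h.symm)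
      rw [Finset.card_pair hne]
      omega
  -- the finite set of nonzero fixed points
  let S : Finset W.Point := G.roots.toFinset.biUnion fun x => {pt x, -pt x}
  have hScard : S.card = G.natDegree := by
    rw [Finset.card_biUnion, Finset.sum_congr rfl hmult, Multiset.toFinset_sum_count_eq,
      IsAlgClosed.card_roots_eq_natDegree]
    intro x _ x' _ hxx'
    rw [Function.onFun, Finset.disjoint_left]
    intro P hP hP'
    apply hxx'
    have e1 : xc P = x := by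
      rcases Finset.mem_insert.mp hP with rfl | hP
      · exact hptx x
      · rw [Finset.mem_singleton.mp hP, Fermat.Agent.S05.xc_neg]; exact hptx x
    have e2 : xc P = x' := by
      rcases Finset.mem_insert.mp hP' with rfl | hP'
      · exact hptx x'
      · rw [Finset.mem_singleton.mp hP', Fermat.Agent.S05.xc_neg]; exact hptx x'
    rw [← e1, e2]
  have hSmem : ∀ P : W.Point, P ∈ S ↔ (P ≠ 0 ∧ Φ P = P) := by
    intro P
    simp only [S, Finset.mem_biUnion, Multiset.mem_toFinset, mem_roots hG0, IsRoot.def,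
      Finset.mem_insert, Finset.mem_singleton]
    constructor
    · rintro ⟨x, hx, rfl | rfl⟩
      · exact ⟨hpt0 x, (hfix _ (hpt0 x)).mp (by rw [hptx]; exact hx)⟩
      · refine ⟨FQ2b.neg_ne_zero' (hpt0 x), (hfix _ (FQ2b.neg_ne_zero' (hpt0 x))).mp ?_⟩
        rw [Fermat.Agent.S05.xc_neg, hptx]; exact hx
    · rintro ⟨hP0, hP⟩
      refine ⟨xc P, (hfix P hP0).mpr hP, ?_⟩
      exact Fermat.Agent.S05.eq_or_eq_neg_of_xc_eq hP0 (hpt0 _) (hptx _).symm
  have h0S : (0 : W.Point) ∉ S := fun h => ((hSmem 0).mp h).1 rfl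
  rw [hdeg, ← hScard, ← Finset.card_insert_of_notMem h0S]
  symm
  apply Nat.subtype_card
  intro P
  rw [Finset.mem_insert, hSmem]
  constructor
  · rintro (rfl | h)
    · exact hΦ.map_zero
    · exact h.2
  · intro h
    by_cases hP : P = 0
    · exact Or.inl hP
    · exact Or.inr ⟨hP, h⟩

end

/-- task EC-FQ2b: the final statement (same shape as `S52.frobenius_quadratic_two`). -/
theorem frobenius_quadratic_char_two [Fact (Nat.Prime 2)] (W₀ : WeierstrassCurve (ZMod 2))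
    (hΔ : W₀.Δ ≠ 0) (K : Type*) [Field K] [Algebra (ZMod 2) K] [IsAlgClosed K] [DecidableEq K]
    (P : (W₀⁄K).toAffine.Point) :
    (2 : ℤ) • (frobPt 2 W₀ K (frobPt 2 W₀ K P)
      - (((2 : ℕ) : ℤ) + 1 - (Nat.card W₀.toAffine.Point : ℤ)) • frobPt 2 W₀ K P
        + ((2 : ℕ) : ℤ) • P) = 0 := by
  have hchar : CharP K 2 := charP_of_injective_algebraMap (algebraMap (ZMod 2) K).injective 2
  have hΔK : (W₀⁄K).toAffine.Δ ≠ 0 := by
    change (W₀.map (algebraMap (ZMod 2) K)).Δ ≠ 0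
    rw [WeierstrassCurve.map_Δ]
    exact (map_ne_zero_iff _ (algebraMap (ZMod 2) K).injective).mpr hΔ
  have hFr : IsFrob (W₀⁄K).toAffine 2 (frobPt 2 W₀ K) := Fermat.Agent.S52.isFrob_frobPt 2 W₀ K
  have hsq : ∀ c : ZMod 2, algebraMap (ZMod 2) K c ^ 2 = algebraMap (ZMod 2) K c := by
    intro c
    rw [← map_pow, ZMod.pow_card]
  have hW : CoeffF2 (W₀⁄K).toAffine :=
    ⟨hsq W₀.a₁, hsq W₀.a₂, hsq W₀.a₃, hsq W₀.a₄, hsq W₀.a₆⟩
  have hΦy : ∀ P, yy (frobPt 2 W₀ K P) = yy P ^ 2 := by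
    intro P
    rcases P with _ | ⟨x, y, h⟩
    · have : (0 : K) ^ 2 = 0 := zero_pow two_ne_zero
      exact this.symm
    · exact Fermat.Agent.S52.FF.frob_apply 2 K y
  have hef : HasDeg (W₀⁄K).toAffine (⇑(frobPt 2 W₀ K) - id) (Nat.card W₀.toAffine.Point) := by
    have := hasDeg_frob_sub_id_two hΔK hW hFr hΦy
    rwa [Fermat.Agent.S52.card_fixed_frobPt 2 W₀ K] at this
  exact Fermat.Agent.S52.FQ.core hΔK (frobPt 2 W₀ K) 2 _
    (Fermat.Agent.S52.hasDeg_frob two_pos hFr) hef P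

/-- all primes: `2 (π² - t π + p) = 0`. -/
theorem frobenius_quadratic_all (p : ℕ) [Fact p.Prime] (W₀ : WeierstrassCurve (ZMod p))
    (hΔ : W₀.Δ ≠ 0) (K : Type*) [Field K] [Algebra (ZMod p) K] [IsAlgClosed K] [DecidableEq K]
    (P : (W₀⁄K).toAffine.Point) :
    (2 : ℤ) • (frobPt p W₀ K (frobPt p W₀ K P)
      - ((p : ℤ) + 1 - (Nat.card W₀.toAffine.Point : ℤ)) • frobPt p W₀ K P + (p : ℤ) • P) = 0 := by
  by_cases hp : p = 2
  · subst hp
    exact frobenius_quadratic_char_two W₀ hΔ K P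
  · exact Fermat.Agent.S52.frobenius_quadratic_two p hp W₀ hΔ K P

end Fermat.Agent.S58.EC
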