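/-
S58, task EC-Line (Mathlib only): three affine points of a Weierstrass curve have sum `0` iff they
are the three intersection points (with multiplicity) of the curve with a non vertical line
`y = l x + m`.  "With multiplicity" is expressed by Vieta's relations for
`x³ + a₂x² + a₄x + a₆ - (lx+m)² - a₁x(lx+m) - a₃(lx+m) = (x-x₁)(x-x₂)(x-x₃)`.

MATH.
`line_of_add_eq_zero`: `P₁ + P₂ = -P₃ ≠ 0`, so NOT (`x₁ = x₂` and `y₁ = negY x₂ y₂`); put
 `l := V.slope x₁ x₂ y₁ y₂`, `m := y₁ - l x₁`.  Mathlib: `Point.add_some` (or `add_of_...`), `addX`, `addY`,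
 `negAddY`, `addPolynomial_slope` (gives the factorisation), `slope_of_X_ne`, `slope_of_Y_ne`.
`add_eq_zero_of_line`: if `x₁ ≠ x₂` then `l = (y₁-y₂)/(x₁-x₂)` is the slope, `addX = x₃` by (V1), and the
 third point is `-(x₃, l x₃ + m)`.  If `x₁ = x₂` then `y₁ = y₂`.  (V1)-(V3) say that `x₁` is a double root, so
 the derivative vanishes: `l (2y₁ + a₁x₁ + a₃) = 3x₁² + 2a₂x₁ + a₄ - a₁y₁`.  If `2y₁ + a₁x₁ + a₃ = 0` both partial
 derivatives vanish: contradiction with `Nonsingular`.  Otherwise `y₁ ≠ negY x₁ y₁` and `l` is the slope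
 (`slope_of_Y_ne`).
-/
import Mathlib

set_option autoImplicit false

namespace Fermat.Agent.S58.EC

open WeierstrassCurve WeierstrassCurve.Affine

variable {F : Type*} [Field F] [DecidableEq F] {V : Affine F}

/-- `(xᵢ, yᵢ)` are the three intersection points of `V` with the line `y = l x + m`. -/
structure IsLine (V : Affine F) (l m x₁ y₁ x₂ y₂ x₃ y₃ : F) : Prop where
  e₁ : y₁ = l * x₁ + m
  e₂ : y₂ = l * x₂ + m
  e₃ : y₃ = l * x₃ + m
  v₁ : x₁ + x₂ + x₃ = l ^ 2 + V.a₁ * l - V.a₂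
  v₂ : x₁ * x₂ + x₁ * x₃ + x₂ * x₃ = V.a₄ - 2 * l * m - V.a₁ * m - V.a₃ * l
  v₃ : x₁ * x₂ * x₃ = m ^ 2 + V.a₃ * m - V.a₆

omit [DecidableEq F] in
theorem Line_slope_mul_aux {l m x₁ y₁ x₂ y₂ x₃ y₃ : F} (h : IsLine V l m x₁ y₁ x₂ y₂ x₃ y₃) :
    l * (y₁ + y₂ + V.a₁ * x₂ + V.a₃) =
      x₁ ^ 2 + x₁ * x₂ + x₂ ^ 2 + V.a₂ * (x₁ + x₂) + V.a₄ - V.a₁ * y₁ := by
  linear_combination (l + V.a₁) * h.e₁ + l * h.e₂ - (x₁ + x₂) * h.v₁ + h.v₂

theorem line_of_add_eq_zero {x₁ y₁ x₂ y₂ x₃ y₃ : F} (h₁ : V.Nonsingular x₁ y₁)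
    (h₂ : V.Nonsingular x₂ y₂) (h₃ : V.Nonsingular x₃ y₃)
    (h : Point.some x₁ y₁ h₁ + Point.some x₂ y₂ h₂ + Point.some x₃ y₃ h₃ = 0) :
    ∃ l m : F, IsLine V l m x₁ y₁ x₂ y₂ x₃ y₃ := by
  have hxy : ¬(x₁ = x₂ ∧ y₁ = V.negY x₂ y₂) := by
    rintro ⟨hx, hy⟩
    rw [Point.add_of_Y_eq hx hy, zero_add] at h
    exact Point.some_ne_zero h₃ h
  have h' : Point.some x₁ y₁ h₁ + Point.some x₂ y₂ h₂ = -Point.some x₃ y₃ h₃ :=
    eq_neg_of_add_eq_zero_left h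
  rw [Point.add_some hxy, Point.neg_some, Point.some.injEq] at h'
  obtain ⟨hX, hY⟩ := h'
  set l := V.slope x₁ x₂ y₁ y₂ with hl
  have hX' : l ^ 2 + V.a₁ * l - V.a₂ - x₁ - x₂ = x₃ := hX
  have hY' : l * (x₃ - x₁) + y₁ = y₃ := by
    have h4 : V.negY (V.addX x₁ x₂ l) (V.negAddY x₁ x₂ y₁ l) = V.negY x₃ y₃ := hY
    rw [hX] at h4
    simp only [negY, negAddY] at h4
    rw [hX] at h4
    linear_combination -h4
  have hpoly := addPolynomial_slope h₁.1 h₂.1 hxy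
  rw [addPolynomial_eq, neg_inj, Cubic.prod_X_sub_C_eq, Cubic.toPoly_injective, ← hl, hX] at hpoly
  have hc := congrArg Cubic.c hpoly
  have hd := congrArg Cubic.d hpoly
  simp only at hc hd
  have he₂ : y₂ = l * x₂ + (y₁ - l * x₁) := by
    by_cases hx : x₁ = x₂
    · have hy : y₁ ≠ V.negY x₂ y₂ := fun h => hxy ⟨hx, h⟩
      rw [Y_eq_of_Y_ne h₁.1 h₂.1 hx hy, hx]
      ring
    · have hx' : x₁ - x₂ ≠ 0 := sub_ne_zero.2 hx
      have hl' : l * (x₁ - x₂) = y₁ - y₂ := by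
        rw [hl, slope_of_X_ne hx, div_mul_cancel₀ _ hx']
      linear_combination hl'
  exact ⟨l, y₁ - l * x₁, by ring, he₂, by linear_combination -hY', by linear_combination -hX',
    by linear_combination -hc, by linear_combination hd⟩

theorem add_eq_zero_of_line {l m x₁ y₁ x₂ y₂ x₃ y₃ : F} (h₁ : V.Nonsingular x₁ y₁)
    (h₂ : V.Nonsingular x₂ y₂) (h₃ : V.Nonsingular x₃ y₃)
    (h : IsLine V l m x₁ y₁ x₂ y₂ x₃ y₃) :
    Point.some x₁ y₁ h₁ + Point.some x₂ y₂ h₂ + Point.some x₃ y₃ h₃ = 0 := by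
  have hsm := Line_slope_mul_aux h
  have key : ¬(x₁ = x₂ ∧ y₁ = V.negY x₂ y₂) ∧ V.slope x₁ x₂ y₁ y₂ = l := by
    by_cases hx : x₁ = x₂
    · subst hx
      have hy : y₁ = y₂ := by rw [h.e₁, h.e₂]
      subst hy
      have hne : y₁ ≠ V.negY x₁ y₁ := by
        intro h0
        rw [negY] at h0
        have h2 := ((nonsingular_iff _ _).1 h₁).2
        rcases h2 with h2 | h2
        · apply h2
          have h5 : y₁ + y₁ + V.a₁ * x₁ + V.a₃ = 0 := by linear_combination h0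
          rw [h5, mul_zero] at hsm
          linear_combination hsm
        · exact h2 h0
      refine ⟨fun hh => hne hh.2, ?_⟩
      rw [slope_of_Y_ne rfl hne, div_eq_iff (sub_ne_zero.2 hne), negY]
      linear_combination -hsm
    · refine ⟨fun hh => hx hh.1, ?_⟩
      rw [slope_of_X_ne hx, div_eq_iff (sub_ne_zero.2 hx)]
      linear_combination h.e₁ - h.e₂
  obtain ⟨hxy, hl⟩ := key
  rw [Point.add_some hxy]
  have hX : V.addX x₁ x₂ (V.slope x₁ x₂ y₁ y₂) = x₃ := by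
    rw [hl, addX]; linear_combination -h.v₁
  refine Point.add_of_Y_eq hX ?_
  rw [addY, hX, negAddY, hX, hl]
  simp only [negY]
  linear_combination (-1 : F) * h.e₁ + h.e₃

/-- the relation used when the third point is in the kernel of reduction: with
`l` the slope of the line through `P₁, P₂`, `l * (y₁ + y₂ + a₁ x₂ + a₃)` is a polynomial in the
coordinates. -/
theorem IsLine.slope_mul {l m x₁ y₁ x₂ y₂ x₃ y₃ : F} (h₁ : V.Nonsingular x₁ y₁)
    (h₂ : V.Nonsingular x₂ y₂) (h : IsLine V l m x₁ y₁ x₂ y₂ x₃ y₃) :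
    l * (y₁ + y₂ + V.a₁ * x₂ + V.a₃) =
      x₁ ^ 2 + x₁ * x₂ + x₂ ^ 2 + V.a₂ * (x₁ + x₂) + V.a₄ - V.a₁ * y₁ :=
  Line_slope_mul_aux h

end Fermat.Agent.S58.EC
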