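/-
S58, task EC-Red: the reduction homomorphism of an elliptic curve with good reduction.

`K` a field, `A` a valuation subring, `π : A →+* k` a ring homomorphism to a field with kernel the maximal
ideal, `V` a Weierstrass curve over `K` with coefficients in `A`, `V'` its reduction, `V'.Δ ≠ 0`.

MATH (Silverman VII.2.1, made elementary).  `red 0 = 0`, `red (x,y) = (π x, π y)` if `x ∈ A` (then `y ∈ A`: it is
integral over `A`), `red (x,y) = 0` otherwise.  `(π x, π y)` satisfies the equation of `V'`, hence is nonsingular since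
`V'.Δ ≠ 0` (Mathlib: `Affine.equation_iff_nonsingular_of_Δ_ne_zero` or similar).  `red (-P) = - red P` is clear.
ADDITIVITY: it is enough to show  (*)  `P₁ + P₂ + P₃ = 0 → red P₁ + red P₂ + red P₃ = 0`.
Let `E1 = {P : red P = 0} = {P : InE1 A.valuation P}`; it is a subgroup (`S13.Loc.inE1_add`, `inE1_neg`; see `Fermat/Agent/S13/LocE1.lean`).
 * all three in `E1`: trivial.  Two of them in `E1`: then so is the third.
 * exactly one in `E1`, say `P₃` (the statement (*) is symmetric): if `P₃ = 0` then `P₂ = -P₁`: clear.  Otherwise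
   `line_of_add_eq_zero` gives `l, m`; by (v₁) `l² + a₁ l = a₂ + x₁ + x₂ + x₃ ∉ A`, so `l ∉ A`, `l⁻¹ ∈ 𝔪`.  `x₂ - x₁ = l⁻¹ (y₂ - y₁) ∈ 𝔪` and by
   `IsLine.slope_mul`  `y₁ + y₂ + a₁x₂ + a₃ = l⁻¹ * (element of A) ∈ 𝔪`: so `π x₂ = π x₁`, `π y₂ = negY (π x₁) (π y₁)`: `red P₂ = - red P₁`.
 * none in `E1`: `line_of_add_eq_zero` gives `l, m`; `l² + a₁ l = a₂ + x₁ + x₂ + x₃ ∈ A` so `l ∈ A` (valuation: `v l > 1` would give
   `v (l² + a₁ l) = v l ^ 2 > 1`), `m = y₁ - l x₁ ∈ A`; apply `π` to the six relations of `IsLine`, then `add_eq_zero_of_line` over `k`.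
-/
import Mathlib
import Fermat.Agent.S13.LocE1
import Fermat.Agent.S58.EC.Line

set_option autoImplicit false
set_option linter.unusedSectionVars false

namespace Fermat.Agent.S58.EC

open WeierstrassCurve WeierstrassCurve.Affine
open Fermat.Agent.S13.Loc (InE1)

variable {K k : Type*} [Field K] [Field k] [DecidableEq K] [DecidableEq k]

/-- `V'` is the reduction of `V` along `π : A → k`, and it is nonsingular. -/
structure RedData (A : ValuationSubring K) (π : A →+* k) (V : Affine K) (V' : Affine k) : Prop where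
  ker : ∀ a : A, π a = 0 ↔ (a : K) ∈ A.nonunits
  a₁ : ∃ α : A, (α : K) = V.a₁ ∧ π α = V'.a₁
  a₂ : ∃ α : A, (α : K) = V.a₂ ∧ π α = V'.a₂
  a₃ : ∃ α : A, (α : K) = V.a₃ ∧ π α = V'.a₃
  a₄ : ∃ α : A, (α : K) = V.a₄ ∧ π α = V'.a₄
  a₆ : ∃ α : A, (α : K) = V.a₆ ∧ π α = V'.a₆
  Δ : V'.Δ ≠ 0

namespace RedData

variable {A : ValuationSubring K} {π : A →+* k} {V : Affine K} {V' : Affine k}

theorem map_eq {a b : A} (h : (a : K) = b) : π a = π b := by rw [Subtype.ext h]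

theorem y_mem (D : RedData A π V V') {x y : K} (h : V.Equation x y) (hx : x ∈ A) : y ∈ A := by
  obtain ⟨α₁, h₁, -⟩ := D.a₁
  obtain ⟨α₂, h₂, -⟩ := D.a₂
  obtain ⟨α₃, h₃, -⟩ := D.a₃
  obtain ⟨α₄, h₄, -⟩ := D.a₄
  obtain ⟨α₆, h₆, -⟩ := D.a₆
  rw [Affine.equation_iff, ← h₁, ← h₂, ← h₃, ← h₄, ← h₆] at h
  rcases A.mem_or_inv_mem y with hy | hy
  · exact hy
  · by_cases hy0 : y = 0
    · rw [hy0]; exact A.zero_mem
    have e : y = ((⟨x, hx⟩ ^ 3 + α₂ * ⟨x, hx⟩ ^ 2 + α₄ * ⟨x, hx⟩ + α₆) * ⟨y⁻¹, hy⟩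
        - α₁ * ⟨x, hx⟩ - α₃ : A) := by
      push_cast
      field_simp
      linear_combination h
    rw [e]
    exact Subtype.mem _

theorem equation (D : RedData A π V V') {X Y : A} (h : V.Equation (X : K) (Y : K)) :
    V'.Equation (π X) (π Y) := by
  obtain ⟨α₁, h₁, g₁⟩ := D.a₁
  obtain ⟨α₂, h₂, g₂⟩ := D.a₂
  obtain ⟨α₃, h₃, g₃⟩ := D.a₃
  obtain ⟨α₄, h₄, g₄⟩ := D.a₄
  obtain ⟨α₆, h₆, g₆⟩ := D.a₆
  rw [Affine.equation_iff, ← h₁, ← h₂, ← h₃, ← h₄, ← h₆] at h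
  rw [Affine.equation_iff, ← g₁, ← g₂, ← g₃, ← g₄, ← g₆]
  have := map_eq (π := π) (a := Y ^ 2 + α₁ * X * Y + α₃ * Y)
    (b := X ^ 3 + α₂ * X ^ 2 + α₄ * X + α₆) (by push_cast; exact h)
  simpa only [map_add, map_mul, map_pow] using this

theorem nonsingular (D : RedData A π V V') {X Y : A} (h : V.Equation (X : K) (Y : K)) :
    V'.Nonsingular (π X) (π Y) :=
  (Affine.equation_iff_nonsingular_of_Δ_ne_zero D.Δ).1 (D.equation h)

open Classical in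
/-- the reduction map. -/
noncomputable def redFun (D : RedData A π V V') : V.Point → V'.Point
  | .zero => 0
  | .some x y h =>
    if hx : x ∈ A then
      Point.some (π ⟨x, hx⟩) (π ⟨y, D.y_mem h.1 hx⟩)
        (D.nonsingular (X := ⟨x, hx⟩) (Y := ⟨y, D.y_mem h.1 hx⟩) h.1)
    else 0

theorem redFun_zero (D : RedData A π V V') : D.redFun 0 = 0 := rfl

theorem redFun_some (D : RedData A π V V') {x y : K} (h : V.Nonsingular x y) (hx : x ∈ A) :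
    D.redFun (Point.some x y h) = Point.some (π ⟨x, hx⟩) (π ⟨y, D.y_mem h.1 hx⟩)
        (D.nonsingular (X := ⟨x, hx⟩) (Y := ⟨y, D.y_mem h.1 hx⟩) h.1) := by
  simp only [redFun, dif_pos hx]

theorem redFun_some_of_not (D : RedData A π V V') {x y : K} (h : V.Nonsingular x y) (hx : x ∉ A) :
    D.redFun (Point.some x y h) = 0 := by
  simp only [redFun, dif_neg hx]

theorem inE1_some_iff {x y : K} (h : V.Nonsingular x y) :
    InE1 A.valuation (Point.some x y h) ↔ x ∉ A := by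
  rw [← A.valuation_le_one_iff, not_le]
  constructor
  · rintro (h0 | h0)
    · exact absurd h0 (Point.some_ne_zero h)
    · exact h0
  · exact Or.inr

theorem redFun_eq_zero_iff (D : RedData A π V V') (P : V.Point) :
    D.redFun P = 0 ↔ InE1 A.valuation P := by
  cases P with
  | zero => exact ⟨fun _ => Or.inl rfl, fun _ => rfl⟩
  | some x y h =>
    rw [inE1_some_iff]
    by_cases hx : x ∈ A
    · rw [D.redFun_some h hx]
      exact ⟨fun h0 => absurd h0 (Point.some_ne_zero _), fun h0 => absurd hx h0⟩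
    · rw [D.redFun_some_of_not h hx]
      exact ⟨fun _ => hx, fun _ => rfl⟩

theorem some_congr {W : Affine k} {x y x' y' : k} (h : W.Nonsingular x y) (h' : W.Nonsingular x' y')
    (hx : x = x') (hy : y = y') : Point.some x y h = Point.some x' y' h' := by
  subst hx hy
  rfl

theorem redFun_neg (D : RedData A π V V') (P : V.Point) : D.redFun (-P) = - D.redFun P := by
  cases P with
  | zero => rfl
  | some x y h =>
    rw [Point.neg_some]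
    by_cases hx : x ∈ A
    · rw [D.redFun_some _ hx, D.redFun_some h hx, Point.neg_some]
      refine some_congr _ _ rfl ?_
      obtain ⟨α₁, h₁, g₁⟩ := D.a₁
      obtain ⟨α₃, h₃, g₃⟩ := D.a₃
      show _ = -_ - V'.a₁ * _ - V'.a₃
      rw [← g₁, ← g₃]
      have := map_eq (π := π) (a := ⟨V.negY x y, D.y_mem ((Affine.nonsingular_neg x y).2 h).1 hx⟩)
        (b := -⟨y, D.y_mem h.1 hx⟩ - α₁ * ⟨x, hx⟩ - α₃) (by
          push_cast
          rw [Affine.negY, h₁, h₃])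
      simpa only [map_sub, map_neg, map_mul] using this
    · rw [D.redFun_some_of_not _ hx, D.redFun_some_of_not h hx, neg_zero]

theorem b_le (D : RedData A π V V') : A.valuation V.b₂ ≤ 1 ∧ A.valuation V.b₄ ≤ 1 ∧
    A.valuation V.b₆ ≤ 1 ∧ A.valuation V.b₈ ≤ 1 := by
  obtain ⟨α₁, h₁, -⟩ := D.a₁
  obtain ⟨α₂, h₂, -⟩ := D.a₂
  obtain ⟨α₃, h₃, -⟩ := D.a₃
  obtain ⟨α₄, h₄, -⟩ := D.a₄
  obtain ⟨α₆, h₆, -⟩ := D.a₆
  simp only [A.valuation_le_one_iff]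
  refine ⟨?_, ?_, ?_, ?_⟩
  · have e : V.b₂ = ((α₁ ^ 2 + 4 * α₂ : A) : K) := by
      push_cast; rw [h₁, h₂, WeierstrassCurve.b₂]; rfl
    rw [e]; exact Subtype.mem _
  · have e : V.b₄ = ((2 * α₄ + α₁ * α₃ : A) : K) := by
      push_cast; rw [h₁, h₃, h₄, WeierstrassCurve.b₄]; rfl
    rw [e]; exact Subtype.mem _
  · have e : V.b₆ = ((α₃ ^ 2 + 4 * α₆ : A) : K) := by
      push_cast; rw [h₃, h₆, WeierstrassCurve.b₆]; rfl
    rw [e]; exact Subtype.mem _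
  · have e : V.b₈ = ((α₁ ^ 2 * α₆ + 4 * α₂ * α₆ - α₁ * α₃ * α₄ + α₂ * α₃ ^ 2 - α₄ ^ 2 : A) : K) := by
      push_cast; rw [h₁, h₂, h₃, h₄, h₆, WeierstrassCurve.b₈]; rfl
    rw [e]; exact Subtype.mem _

theorem map_inv_eq_zero (D : RedData A π V V') {l : K} (hl : l ∉ A) (hl' : l⁻¹ ∈ A) :
    π ⟨l⁻¹, hl'⟩ = 0 := by
  rw [D.ker]
  show A.valuation l⁻¹ < 1
  rw [← A.valuation_le_one_iff, not_le] at hl
  rw [map_inv₀]
  exact inv_lt_one_of_one_lt₀ hl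

theorem redFun_add_eq_zero (D : RedData A π V V') {P₁ P₂ : V.Point}
    (h : InE1 A.valuation (P₁ + P₂)) : D.redFun P₁ + D.redFun P₂ = 0 := by
  obtain ⟨hb₂, hb₄, hb₆, hb₈⟩ := D.b_le
  by_cases h1 : InE1 A.valuation P₁
  · have h2 : InE1 A.valuation P₂ := by
      have := Fermat.Agent.S13.Loc.inE1_sub _ hb₂ hb₄ hb₆ hb₈ h h1
      rwa [add_sub_cancel_left] at this
    rw [(D.redFun_eq_zero_iff _).2 h1, (D.redFun_eq_zero_iff _).2 h2, add_zero]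
  by_cases h2 : InE1 A.valuation P₂
  · exfalso
    apply h1
    have := Fermat.Agent.S13.Loc.inE1_sub _ hb₂ hb₄ hb₆ hb₈ h h2
    rwa [add_sub_cancel_right] at this
  by_cases h0 : P₁ + P₂ = 0
  · have : P₂ = - P₁ := (neg_eq_of_add_eq_zero_right h0).symm
    rw [this, D.redFun_neg, add_neg_cancel]
  cases P₁ with
  | zero => exact absurd (Or.inl rfl) h1
  | some x₁ y₁ n₁ =>
  cases P₂ with
  | zero => exact absurd (Or.inl rfl) h2
  | some x₂ y₂ n₂ =>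
  rw [inE1_some_iff, not_not] at h1 h2
  have h' := Fermat.Agent.S13.Loc.inE1_neg _ h
  have hsum : Point.some x₁ y₁ n₁ + Point.some x₂ y₂ n₂
      + -(Point.some x₁ y₁ n₁ + Point.some x₂ y₂ n₂) = 0 := add_neg_cancel _
  have h0' : -(Point.some x₁ y₁ n₁ + Point.some x₂ y₂ n₂) ≠ 0 := by
    rwa [Ne, neg_eq_zero]
  generalize -(Point.some x₁ y₁ n₁ + Point.some x₂ y₂ n₂) = P₃ at h' hsum h0'
  cases P₃ with
  | zero => exact absurd rfl h0'
  | some x₃ y₃ n₃ =>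
  rw [inE1_some_iff] at h'
  obtain ⟨l, m, hl⟩ := line_of_add_eq_zero n₁ n₂ n₃ hsum
  have hs := hl.slope_mul n₁ n₂
  obtain ⟨e₁, e₂, -, v₁, -, -⟩ := hl
  obtain ⟨α₁, a₁, g₁⟩ := D.a₁
  obtain ⟨α₂, a₂, g₂⟩ := D.a₂
  obtain ⟨α₃, a₃, g₃⟩ := D.a₃
  obtain ⟨α₄, a₄, g₄⟩ := D.a₄
  have hy₁ := D.y_mem n₁.1 h1
  have hy₂ := D.y_mem n₂.1 h2
  have hlA : l ∉ A := by
    intro hlA
    apply h'
    have e : x₃ = ((⟨l, hlA⟩ ^ 2 + α₁ * ⟨l, hlA⟩ - α₂ - ⟨x₁, h1⟩ - ⟨x₂, h2⟩ : A) : K) := by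
      push_cast
      rw [a₁, a₂]
      linear_combination v₁
    rw [e]; exact Subtype.mem _
  have hl0 : l ≠ 0 := by
    rintro rfl
    exact hlA A.zero_mem
  have hlA' : l⁻¹ ∈ A := (A.mem_or_inv_mem l).resolve_left hlA
  have hπ := D.map_inv_eq_zero hlA hlA'
  rw [D.redFun_some n₁ h1, D.redFun_some n₂ h2]
  have hX : π ⟨x₁, h1⟩ = π ⟨x₂, h2⟩ := by
    have := map_eq (π := π) (a := ⟨x₂, h2⟩ - ⟨x₁, h1⟩)
      (b := ⟨l⁻¹, hlA'⟩ * (⟨y₂, hy₂⟩ - ⟨y₁, hy₁⟩)) (by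
        push_cast
        field_simp
        linear_combination e₁ - e₂)
    rw [map_sub, map_mul, hπ, zero_mul, sub_eq_zero] at this
    exact this.symm
  refine Point.add_of_Y_eq hX ?_
  have := map_eq (π := π) (a := ⟨y₁, hy₁⟩ + ⟨y₂, hy₂⟩ + α₁ * ⟨x₂, h2⟩ + α₃)
      (b := ⟨l⁻¹, hlA'⟩ * (⟨x₁, h1⟩ ^ 2 + ⟨x₁, h1⟩ * ⟨x₂, h2⟩ + ⟨x₂, h2⟩ ^ 2
        + α₂ * (⟨x₁, h1⟩ + ⟨x₂, h2⟩) + α₄ - α₁ * ⟨y₁, hy₁⟩)) (by
        push_cast
        rw [a₁, a₂, a₃, a₄, ← hs]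
        field_simp)
  rw [map_mul, hπ, zero_mul, map_add, map_add, map_add, map_mul, g₁, g₃] at this
  show _ = -_ - V'.a₁ * _ - V'.a₃
  linear_combination this

theorem redFun_add_add (D : RedData A π V V') {P₁ P₂ P₃ : V.Point} (h : P₁ + P₂ + P₃ = 0) :
    D.redFun P₁ + D.redFun P₂ + D.redFun P₃ = 0 := by
  by_cases h3 : InE1 A.valuation P₃
  · rw [(D.redFun_eq_zero_iff _).2 h3, add_zero]
    apply D.redFun_add_eq_zero
    rw [eq_neg_of_add_eq_zero_left h]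
    exact Fermat.Agent.S13.Loc.inE1_neg _ h3
  by_cases h2 : InE1 A.valuation P₂
  · rw [(D.redFun_eq_zero_iff _).2 h2, add_zero]
    apply D.redFun_add_eq_zero
    have e : P₁ + P₃ = -P₂ := by
      rw [eq_neg_iff_add_eq_zero, ← h]; abel
    rw [e]
    exact Fermat.Agent.S13.Loc.inE1_neg _ h2
  by_cases h1 : InE1 A.valuation P₁
  · rw [(D.redFun_eq_zero_iff _).2 h1, zero_add]
    apply D.redFun_add_eq_zero
    have e : P₂ + P₃ = -P₁ := by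
      rw [eq_neg_iff_add_eq_zero, ← h]; abel
    rw [e]
    exact Fermat.Agent.S13.Loc.inE1_neg _ h1
  cases P₁ with
  | zero => exact absurd (Or.inl rfl) h1
  | some x₁ y₁ n₁ =>
  cases P₂ with
  | zero => exact absurd (Or.inl rfl) h2
  | some x₂ y₂ n₂ =>
  cases P₃ with
  | zero => exact absurd (Or.inl rfl) h3
  | some x₃ y₃ n₃ =>
  rw [inE1_some_iff, not_not] at h1 h2 h3
  obtain ⟨l, m, e₁, e₂, e₃, v₁, v₂, v₃⟩ := line_of_add_eq_zero n₁ n₂ n₃ h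
  obtain ⟨α₁, a₁, g₁⟩ := D.a₁
  obtain ⟨α₂, a₂, g₂⟩ := D.a₂
  obtain ⟨α₃, a₃, g₃⟩ := D.a₃
  obtain ⟨α₄, a₄, g₄⟩ := D.a₄
  obtain ⟨α₆, a₆, g₆⟩ := D.a₆
  have hy₁ := D.y_mem n₁.1 h1
  have hy₂ := D.y_mem n₂.1 h2
  have hy₃ := D.y_mem n₃.1 h3
  have hl : l ∈ A := by
    rcases A.mem_or_inv_mem l with hl | hl
    · exact hl
    · by_cases hl0 : l = 0
      · rw [hl0]; exact A.zero_mem
      have e : l = (((⟨x₁, h1⟩ + ⟨x₂, h2⟩ + ⟨x₃, h3⟩ + α₂) * ⟨l⁻¹, hl⟩ - α₁ : A) : K) := by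
        push_cast
        rw [a₁, a₂]
        field_simp
        linear_combination -v₁
      rw [e]; exact Subtype.mem _
  have hm : m ∈ A := by
    have e : m = ((⟨y₁, hy₁⟩ - ⟨l, hl⟩ * ⟨x₁, h1⟩ : A) : K) := by
      push_cast
      linear_combination -e₁
    rw [e]; exact Subtype.mem _
  rw [D.redFun_some n₁ h1, D.redFun_some n₂ h2, D.redFun_some n₃ h3]
  refine add_eq_zero_of_line (l := π ⟨l, hl⟩) (m := π ⟨m, hm⟩) _ _ _ ⟨?_, ?_, ?_, ?_, ?_, ?_⟩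
  · have := map_eq (π := π) (a := ⟨y₁, hy₁⟩) (b := ⟨l, hl⟩ * ⟨x₁, h1⟩ + ⟨m, hm⟩) (by
      push_cast; exact e₁)
    simpa only [map_add, map_mul] using this
  · have := map_eq (π := π) (a := ⟨y₂, hy₂⟩) (b := ⟨l, hl⟩ * ⟨x₂, h2⟩ + ⟨m, hm⟩) (by
      push_cast; exact e₂)
    simpa only [map_add, map_mul] using this
  · have := map_eq (π := π) (a := ⟨y₃, hy₃⟩) (b := ⟨l, hl⟩ * ⟨x₃, h3⟩ + ⟨m, hm⟩) (by
      push_cast; exact e₃)
    simpa only [map_add, map_mul] using this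
  · have := map_eq (π := π) (a := ⟨x₁, h1⟩ + ⟨x₂, h2⟩ + ⟨x₃, h3⟩)
      (b := ⟨l, hl⟩ ^ 2 + α₁ * ⟨l, hl⟩ - α₂) (by
      push_cast; rw [a₁, a₂]; exact v₁)
    simpa only [map_add, map_mul, map_sub, map_pow, g₁, g₂] using this
  · have := map_eq (π := π)
      (a := ⟨x₁, h1⟩ * ⟨x₂, h2⟩ + ⟨x₁, h1⟩ * ⟨x₃, h3⟩ + ⟨x₂, h2⟩ * ⟨x₃, h3⟩)
      (b := α₄ - 2 * ⟨l, hl⟩ * ⟨m, hm⟩ - α₁ * ⟨m, hm⟩ - α₃ * ⟨l, hl⟩) (by
      push_cast; rw [a₁, a₃, a₄]; exact v₂)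
    simpa only [map_add, map_mul, map_sub, map_ofNat, g₁, g₃, g₄] using this
  · have := map_eq (π := π) (a := ⟨x₁, h1⟩ * ⟨x₂, h2⟩ * ⟨x₃, h3⟩)
      (b := ⟨m, hm⟩ ^ 2 + α₃ * ⟨m, hm⟩ - α₆) (by
      push_cast; rw [a₃, a₆]; exact v₃)
    simpa only [map_add, map_mul, map_sub, map_pow, g₃, g₆] using this

theorem redFun_add (D : RedData A π V V') (P Q : V.Point) :
    D.redFun (P + Q) = D.redFun P + D.redFun Q := by
  have h := D.redFun_add_add (P₁ := P) (P₂ := Q) (P₃ := -(P + Q)) (add_neg_cancel _)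
  rw [D.redFun_neg, add_neg_eq_zero] at h
  exact h.symm

end RedData

/-- **The reduction homomorphism.** -/
theorem exists_red {A : ValuationSubring K} {π : A →+* k} {V : Affine K} {V' : Affine k}
    (D : RedData A π V V') :
    ∃ red : V.Point →+ V'.Point,
      (∀ P, red P = 0 ↔ InE1 A.valuation P) ∧
      ∀ (x y : K) (h : V.Nonsingular x y) (hx : x ∈ A), ∃ (hy : y ∈ A) (h' : V'.Nonsingular (π ⟨x, hx⟩) (π ⟨y, hy⟩)),
        red (Point.some x y h) = Point.some (π ⟨x, hx⟩) (π ⟨y, hy⟩) h' :=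
  ⟨{ toFun := D.redFun, map_zero' := D.redFun_zero, map_add' := D.redFun_add },
    D.redFun_eq_zero_iff, fun _ _ h hx => ⟨D.y_mem h.1 hx, _, D.redFun_some h hx⟩⟩

end Fermat.Agent.S58.EC
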