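/-
S58, task EC-Frob: good reduction at `ℓ`:
 * a Frobenius element `φ` at `ℓ` satisfies `φ² - a_ℓ φ + ℓ = 0` on `E[m]` (`m` odd, prime to `ℓ`);
 * inertia at `ℓ` acts trivially on `E[m]` (`m` prime to `ℓ`).

MATH.  `k := IsLocalRing.ResidueField A` (algebraically closed: `Fermat.Agent.S18.isAlgClosed_residueField`, check the exact name in
`Fermat/Agent/S18/Inputs.lean`), of characteristic `ℓ` (`(ℓ : Qb) ∈ A.nonunits`), so `Algebra (ZMod ℓ) k` (`ZMod.algebra`).
`π := IsLocalRing.residue A`, `V := (EQ W)⁄Qb`, `V' := ((W.reductionMod ℓ)⁄k).toAffine`: `RedData A π V V'` (the coefficients are images of integers;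
`V'.Δ = (W.Δ : k) ≠ 0` because `ℓ ∤ W.Δ`).  `exists_red` gives `red`.
 (i) `red (φ • P) = frobPt ℓ _ k (red P)`: for `P = (x,y)`, `x ∈ A`: `π (φ x) = (π x)^ℓ` (`S31.frob_sub_pow_mem_nonunits`); for `P ∈ E1`: `φ` preserves `A` so `φ • P ∈ E1`.
 (ii) `R := φ•φ•P - a_ℓ • φ•P + ℓ • P`: `red (2 • R) = 0` by `frobenius_quadratic_all` (`W.apOfModel ℓ = ℓ + 1 - #W₀(𝔽_ℓ)` by definition), so `2R ∈ E1`; `m • (2R) = 0`
   and `S05.T1` (torsion of order prime to `ℓ` has integral `x`) give `2R = 0`; `m` odd: `R = 0`.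
 (iii) inertia: `π (σ x) = π x` (`S05.inertia_spec`), so `red (σ•P) = red P`, `σ•P - P ∈ E1`, killed by `m`: `= 0`.
-/
import Mathlib
import Fermat.Agent.S58.Defs
import Fermat.Agent.S58.EC.Red
import Fermat.Agent.S58.EC.FQ2
import Fermat.Agent.S18.Inputs
import Fermat.Agent.S13.LocFrey

set_option autoImplicit false

namespace Fermat.Agent.S58.EC

open WeierstrassCurve WeierstrassCurve.Affine
open Fermat.Agent.S31 (Qb GQ)
open Fermat.Agent.S13.Loc (InE1)

/-- the reduction data at a good prime. -/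
theorem redData_good (W : WeierstrassCurve ℤ) {ℓ : ℕ}
    (hgood : W.IsGoodPrimeFor ℓ)
    (A : ValuationSubring Qb) [CharP (IsLocalRing.ResidueField A) ℓ]
    [Algebra (ZMod ℓ) (IsLocalRing.ResidueField A)] :
    RedData A (IsLocalRing.residue A) ((EQ W)⁄Qb).toAffine
      ((W.reductionMod ℓ)⁄(IsLocalRing.ResidueField A)).toAffine where
  ker a := by
    rw [IsLocalRing.residue_eq_zero_iff, A.valuation_lt_one_iff, ValuationSubring.mem_nonunits_iff]
  a₁ := ⟨(W.a₁ : A), by simp [WeierstrassCurve.baseChange], by simp [WeierstrassCurve.baseChange, WeierstrassCurve.reductionMod]⟩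
  a₂ := ⟨(W.a₂ : A), by simp [WeierstrassCurve.baseChange], by simp [WeierstrassCurve.baseChange, WeierstrassCurve.reductionMod]⟩
  a₃ := ⟨(W.a₃ : A), by simp [WeierstrassCurve.baseChange], by simp [WeierstrassCurve.baseChange, WeierstrassCurve.reductionMod]⟩
  a₄ := ⟨(W.a₄ : A), by simp [WeierstrassCurve.baseChange], by simp [WeierstrassCurve.baseChange, WeierstrassCurve.reductionMod]⟩
  a₆ := ⟨(W.a₆ : A), by simp [WeierstrassCurve.baseChange], by simp [WeierstrassCurve.baseChange, WeierstrassCurve.reductionMod]⟩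
  Δ := by
    show ((W.reductionMod ℓ).map (algebraMap (ZMod ℓ) (IsLocalRing.ResidueField A))).Δ ≠ 0
    rw [WeierstrassCurve.reductionMod, WeierstrassCurve.map_Δ, WeierstrassCurve.map_Δ]
    simp only [eq_intCast, map_intCast]
    rw [Ne, CharP.intCast_eq_zero_iff (IsLocalRing.ResidueField A) ℓ]
    exact hgood

/-- a point of the kernel of reduction killed by an integer prime to `ℓ` is zero. -/
theorem eq_zero_of_inE1_of_nsmul {A : ValuationSubring Qb} {ℓ : ℕ} (hℓ : ℓ.Prime)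
    (hA : A.LiesOverPrime ℓ) {V : Affine Qb}
    (hb : A.valuation V.b₂ ≤ 1 ∧ A.valuation V.b₄ ≤ 1 ∧ A.valuation V.b₆ ≤ 1 ∧ A.valuation V.b₈ ≤ 1)
    {m : ℕ} (hℓm : ¬ ℓ ∣ m) (R : V.Point) (hR : InE1 A.valuation R) (hm : m • R = 0) : R = 0 := by
  obtain ⟨hb₂, hb₄, hb₆, hb₈⟩ := hb
  have hv : A.valuation (m : Qb) = 1 := by
    have h := Fermat.Agent.S05.val_int A hℓ hA (m : ℤ)
    rw [Int.cast_natCast] at h
    refine le_antisymm h.1 (not_lt.1 fun h1 => hℓm ?_)
    exact_mod_cast h.2.1 h1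
  have h1 := Fermat.Agent.S05.T1 A.valuation hb₂ hb₄ hb₆ hb₈ m hv R hm
  rcases hR with h | h
  · exact h
  · exact absurd h1 (not_le.2 h)

/-- compatibility of the reduction with an automorphism `σ` preserving `A` and inducing `f` on the
residue field. -/
theorem red_smul_eq (W : WeierstrassCurve ℤ) {ℓ : ℕ} [Fact ℓ.Prime]
    (A : ValuationSubring Qb)
    [Algebra (ZMod ℓ) (IsLocalRing.ResidueField A)] [DecidableEq (IsLocalRing.ResidueField A)]
    (red : ((EQ W)⁄Qb).toAffine.Point →+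
      ((W.reductionMod ℓ)⁄(IsLocalRing.ResidueField A)).toAffine.Point)
    (h0 : ∀ P, red P = 0 ↔ InE1 A.valuation P)
    (h1 : ∀ (x y : Qb) (h : ((EQ W)⁄Qb).toAffine.Nonsingular x y) (hx : x ∈ A),
      ∃ (hy : y ∈ A) (h' : ((W.reductionMod ℓ)⁄(IsLocalRing.ResidueField A)).toAffine.Nonsingular
          (IsLocalRing.residue A ⟨x, hx⟩) (IsLocalRing.residue A ⟨y, hy⟩)),
        red (Point.some x y h) = Point.some (IsLocalRing.residue A ⟨x, hx⟩)
          (IsLocalRing.residue A ⟨y, hy⟩) h')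
    (σ : GQ) (hσ : ∀ x, σ x ∈ A ↔ x ∈ A)
    (f : IsLocalRing.ResidueField A →ₐ[ZMod ℓ] IsLocalRing.ResidueField A)
    (hf : ∀ (x : Qb) (hx : x ∈ A) (hx' : σ x ∈ A),
      IsLocalRing.residue A ⟨σ x, hx'⟩ = f (IsLocalRing.residue A ⟨x, hx⟩))
    (P : Pts W) :
    red (σ • P) = Point.map (W' := (W.reductionMod ℓ).toAffine) f (red P) := by
  cases P with
  | zero =>
    show red 0 = Point.map (W' := (W.reductionMod ℓ).toAffine) f (red 0)
    rw [map_zero, map_zero]
  | some x y h =>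
    have n0 : ((EQ W)⁄Qb).toAffine.Nonsingular (σ x) (σ y) :=
      (WeierstrassCurve.Affine.baseChange_nonsingular _ σ.toAlgHom.injective x y).2 h
    have e : σ • (Point.some x y h : Pts W) = Point.some (σ x) (σ y) n0 := rfl
    rw [e]
    by_cases hx : x ∈ A
    · have hx' : σ x ∈ A := (hσ x).2 hx
      obtain ⟨hy, n, e1⟩ := h1 x y h hx
      obtain ⟨hy', n', e2⟩ := h1 (σ x) (σ y) n0 hx'
      rw [e1, e2]
      exact RedData.some_congr _ _ (hf x hx hx') (hf y hy hy')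
    · have hx' : σ x ∉ A := fun h => hx ((hσ x).1 h)
      rw [(h0 _).2 ((RedData.inE1_some_iff _).2 hx'), (h0 _).2 ((RedData.inE1_some_iff _).2 hx),
        map_zero]

theorem nsmul_quad_eq_zero {G : Type*} [AddCommGroup G] (f : G →+ G) (a l : ℤ) {m : ℕ} {P : G}
    (hP : m • P = 0) : m • (f (f P) - a • f P + l • P) = 0 := by
  rw [nsmul_add, nsmul_sub, ← map_nsmul, ← map_nsmul, smul_comm m a, smul_comm m l, ← map_nsmul, hP]
  simp

theorem nsmul_zsmul_eq_zero {G : Type*} [AddCommGroup G] (a : ℤ) {m : ℕ} {R : G}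
    (hR : m • R = 0) : m • (a • R) = 0 := by
  rw [smul_comm, hR, smul_zero]

theorem eq_zero_of_odd_nsmul {G : Type*} [AddCommGroup G] {m : ℕ} (hm : Odd m) {R : G}
    (hR : m • R = 0) (h2 : (2 : ℤ) • R = 0) : R = 0 := by
  obtain ⟨j, hj⟩ := hm
  have h2' : 2 • R = 0 := by
    rw [← natCast_zsmul]; exact h2
  rw [hj, add_smul, mul_comm, mul_smul, h2', smul_zero, zero_add, one_smul] at hR
  exact hR

theorem charP_residueField {A : ValuationSubring Qb} {ℓ : ℕ} (hℓ : ℓ.Prime)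
    (hA : A.LiesOverPrime ℓ) : CharP (IsLocalRing.ResidueField A) ℓ := by
  refine (CharP.charP_iff_prime_eq_zero hℓ).2 ?_
  have h : IsLocalRing.residue A (ℓ : A) = 0 := by
    rw [IsLocalRing.residue_eq_zero_iff, A.valuation_lt_one_iff]
    have h1 : (ℓ : Qb) ∈ A.nonunits := hA
    rw [ValuationSubring.mem_nonunits_iff] at h1
    simpa using h1
  simpa using h

theorem quadRel_frobenius (W : WeierstrassCurve ℤ) {ℓ : ℕ} (hℓ : ℓ.Prime)
    (hgood : W.IsGoodPrimeFor ℓ) {m : ℕ} (hm : Odd m) (hℓm : ¬ ℓ ∣ m)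
    (A : ValuationSubring Qb) (hA : A.LiesOverPrime ℓ) (φ : GQ) (hφ : A.IsFrobeniusAt φ ℓ) :
    QuadRel W m φ (W.apOfModel ℓ) ℓ := by
  intro P hP
  have : Fact ℓ.Prime := ⟨hℓ⟩
  have hchar : CharP (IsLocalRing.ResidueField A) ℓ := charP_residueField hℓ hA
  let : Algebra (ZMod ℓ) (IsLocalRing.ResidueField A) := ZMod.algebra _ ℓ
  have : IsAlgClosed (IsLocalRing.ResidueField A) := Fermat.Agent.S18.isAlgClosed_residueField A
  let : DecidableEq (IsLocalRing.ResidueField A) := Classical.decEq _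
  have D := redData_good W hgood A
  obtain ⟨red, h0, h1⟩ := exists_red D
  have hdec := Fermat.Agent.S05.mem_iff_of_mem_decomposition A φ hφ.mem_decompositionSubgroup
  have hφred : ∀ P : Pts W, red (φ • P) =
      Fermat.Agent.S52.frobPt ℓ (W.reductionMod ℓ) (IsLocalRing.ResidueField A) (red P) := by
    intro P
    refine red_smul_eq W A red h0 h1 φ hdec
      (FiniteField.frobeniusAlgHom (ZMod ℓ) (IsLocalRing.ResidueField A)) ?_ P
    intro x hx hx'
    rw [Fermat.Agent.S52.FF.frob_apply, ← map_pow, ← sub_eq_zero, ← map_sub, D.ker]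
    exact Fermat.Agent.S31.frob_sub_pow_mem_nonunits A φ ℓ hφ hx
  set R : Pts W := φ • φ • P - W.apOfModel ℓ • φ • P + (ℓ : ℤ) • P with hR
  have hΔ : (W.reductionMod ℓ).Δ ≠ 0 := by
    rw [WeierstrassCurve.reductionMod, WeierstrassCurve.map_Δ]
    simp only [eq_intCast]
    rw [Ne, ZMod.intCast_zmod_eq_zero_iff_dvd]
    exact hgood
  have hq := frobenius_quadratic_all ℓ (W.reductionMod ℓ) hΔ (IsLocalRing.ResidueField A) (red P)
  have hred2 : red ((2 : ℤ) • R) = 0 := by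
    rw [map_zsmul, hR, map_add, map_sub, map_zsmul, map_zsmul, hφred, hφred]
    have ha : W.apOfModel ℓ = (ℓ : ℤ) + 1 - (Nat.card (W.reductionMod ℓ).toAffine.Point : ℤ) := by
      rw [WeierstrassCurve.apOfModel, WeierstrassCurve.traceOfFrobenius, Nat.card_zmod]
      rfl
    rw [ha]
    exact hq
  have hmR : m • R = 0 :=
    nsmul_quad_eq_zero (DistribSMul.toAddMonoidHom (Pts W) φ) _ _ hP
  have h2R : (2 : ℤ) • R = 0 := by
    refine eq_zero_of_inE1_of_nsmul hℓ hA D.b_le hℓm _ ((h0 _).1 hred2) ?_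
    exact nsmul_zsmul_eq_zero _ hmR
  exact eq_zero_of_odd_nsmul hm hmR h2R

theorem smul_eq_of_inertia_of_good (W : WeierstrassCurve ℤ) {ℓ : ℕ} (hℓ : ℓ.Prime)
    (hgood : W.IsGoodPrimeFor ℓ) {m : ℕ} (hℓm : ¬ ℓ ∣ m)
    (A : ValuationSubring Qb) (hA : A.LiesOverPrime ℓ) (σ : GQ) (hσ : σ ∈ A.inertiaSubgroupIn ℚ)
    (P : Pts W) (hP : m • P = 0) : σ • P = P := by
  have : Fact ℓ.Prime := ⟨hℓ⟩
  have hchar : CharP (IsLocalRing.ResidueField A) ℓ := charP_residueField hℓ hA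
  let : Algebra (ZMod ℓ) (IsLocalRing.ResidueField A) := ZMod.algebra _ ℓ
  let : DecidableEq (IsLocalRing.ResidueField A) := Classical.decEq _
  have D := redData_good W hgood A
  obtain ⟨red, h0, h1⟩ := exists_red D
  have hdec := Fermat.Agent.S05.mem_iff_of_mem_decomposition A σ
    (Fermat.Agent.S05.mem_decomposition_of_mem_inertia A σ hσ)
  have hσred : red (σ • P) = red P := by
    have h := red_smul_eq W A red h0 h1 σ hdec (AlgHom.id _ _) ?_ P
    · rw [h]
      cases red P <;> rfl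
    intro x hx hx'
    rw [AlgHom.id_apply, ← sub_eq_zero, ← map_sub, D.ker, ValuationSubring.mem_nonunits_iff]
    exact (Fermat.Agent.S05.inertia_spec A σ hσ).2 x ((A.valuation_le_one_iff x).2 hx)
  have hR : σ • P - P = 0 := by
    refine eq_zero_of_inE1_of_nsmul hℓ hA D.b_le hℓm _ ((h0 _).1 ?_) ?_
    · rw [map_sub, hσred, sub_self]
    · have e : m • (σ • P) = 0 := by
        have := (DistribSMul.toAddMonoidHom (Pts W) σ).map_nsmul m P
        rw [hP, map_zero] at this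
        exact this.symm
      rw [nsmul_sub, e, hP, sub_zero]
  exact sub_eq_zero.1 hR

end Fermat.Agent.S58.EC
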