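/-
S58, task EC-Branch: `S13.Loc.Inert.same_branch` and `S13.Loc.Inert.sq_mult` WITHOUT the hypothesis `σ e = e`.

In S13 the centre `e` (the `x`-coordinate of a 2-torsion point reducing to the node) was rational.  For a general curve inertia may
swap the two roots of `4x³ + b₂x² + 2b₄x + b₆` which reduce to the node; they are very close: `v (σ e - e) ≤ v (4 κ)` (`val_sigma_sub_le`).

MATH.
`val_sigma_sub_le`: `σ e` is again a root of `D2` (`σ` fixes `b₂, b₄, b₆`).  If `u := e - σ e ≠ 0`, `Centre.D2_id` at `s = σ e` gives `4u² - βu + 4κ = 0`, i.e.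
 `4κ = u (β - 4u)`; `v u < 1` (`Inert.close`, `v e ≤ 1`), `v β = 1`, so `v (β - 4u) = 1` and `v (4κ) = v u`.
`same_branch'`: copy the proof of `S13.Loc.Inert.same_branch` (file `Fermat/Agent/S13/LocBranch.lean`).  With `ξ = x(P) - e`, `δ := σ e - e`, `ξ' := x(sP) - e = σ ξ + δ`:
 `v δ ≤ v (4κ) ≤ v κ < v ξ = v (σ ξ)`, so `v ξ' = v ξ`;  `yc(sP) ξ + yc(P) ξ' = (σ τ + τ) ξ σξ + yc(P) δ`, the first term has valuation `v 2 * (v ξ)²` (as in S13) and
 `v (yc(P) δ) = v τ * v ξ * v δ ≤ v ξ * v 4 * v κ < v 4 * (v ξ)² ≤ v 2 * (v ξ)²`.  Then `Loc.same_branch`.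
`sq_mult'`: copy the proof of `S13.Loc.Inert.sq_mult` (file `Fermat/Agent/S13/LocMain.lean`), using `same_branch'`.
-/
import Mathlib
import Fermat.Agent.S13.LocMain

set_option autoImplicit false

namespace Fermat.Agent.S58.EC

open WeierstrassCurve WeierstrassCurve.Affine Fermat.Agent.S05 Fermat.Agent.S13.Loc

variable {K : Type*} [Field K] [DecidableEq K] {W : Affine K} {e κ β : K}
variable {Γ₀ : Type*} [LinearOrderedCommGroupWithZero Γ₀] (v : Valuation K Γ₀)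

theorem val_sigma_sub_le {σ : K →+* K} {s : W.Point →+ W.Point} (hI : Inert v W σ s)
    (hc : Centre W e κ β) (hb₂ : σ W.b₂ = W.b₂) (hb₄ : σ W.b₄ = W.b₄) (hb₆ : σ W.b₆ = W.b₆)
    (he : v e ≤ 1) (hβ : v β = 1) : v (σ e - e) ≤ v (4 * κ) := by
  by_cases hd : σ e - e = 0
  · rw [hd, map_zero]; exact zero_le
  have h4 : v (4 : K) ≤ 1 := by simpa using v_natCast_le_one v 4
  have hD : D2 W (σ e) = 0 := by
    have h0 := congrArg σ hc.c3
    simp only [map_add, map_mul, map_pow, map_ofNat, map_zero, hb₂, hb₄, hb₆] at h0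
    simpa only [D2] using h0
  rw [hc.D2_id] at hD
  have h1 : 4 * (σ e - e) ^ 2 + β * (σ e - e) + 4 * κ = 0 := (mul_eq_zero.1 hD).resolve_left hd
  have h2 : 4 * κ = -((σ e - e) * (β + 4 * (σ e - e))) := by linear_combination h1
  have hlt : v (σ e - e) < 1 := hI.close e he
  have h3 : v (β + 4 * (σ e - e)) = 1 := by
    rw [← hβ]
    apply v.map_add_eq_of_lt_left
    rw [hβ, map_mul]
    exact lt_of_le_of_lt (mul_le_of_le_one_left' h4) hlt
  rw [h2, Valuation.map_neg, map_mul, h3, mul_one]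

theorem same_branch' {σ : K →+* K} {s : W.Point →+ W.Point} (hI : Inert v W σ s)
    (hc : Centre W e κ β) (h2 : (2 : K) ≠ 0) (hσe : v (σ e - e) ≤ v (4 * κ))
    (ha₁ : v W.a₁ ≤ 1) (ha₂ : v W.a₂ ≤ 1) (he : v e ≤ 1) (hβ : v β = 1)
    {P : W.Point} (hP : P ≠ 0) (h1 : v κ < v (xc P - e)) (h3 : v (xc P - e) < 1) :
    InE0 v e (s P - P) := by
  set ξ := xc P - e with hξdef
  set Y := yc P with hYdef
  set δ := σ e - e with hδdef
  have hvξ : 0 < v ξ := lt_of_le_of_lt zero_le h1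
  have hξ0 : ξ ≠ 0 := (v.ne_zero_iff).mp hvξ.ne'
  have h4 : v (4 : K) ≤ 1 := by simpa using v_natCast_le_one v 4
  have h2' : v (2 : K) ≤ 1 := by simpa using v_natCast_le_one v 2
  have h3' : v (3 : K) ≤ 1 := by simpa using v_natCast_le_one v 3
  have hv2 : 0 < v (2 : K) := zero_lt_iff.mpr ((v.ne_zero_iff).mpr h2)
  have hY2 : Y ^ 2 = ξ * (4 * ξ ^ 2 + β * ξ + 4 * κ) := by
    rw [hYdef, yc_sq P hP, hc.D2_id]
  have hκξ : v (κ / ξ) < 1 := by
    rw [map_div₀]; exact (div_lt_one₀ hvξ).mpr h1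
  have hsm : v (ξ + κ / ξ) < 1 := v.map_add_lt h3 hκξ
  set τ := Y / ξ with hτdef
  set t := (τ - W.a₁) / 2 with htdef
  have hτ2 : τ ^ 2 = β + 4 * (ξ + κ / ξ) := by
    rw [hτdef, div_pow, hY2]; field_simp; ring
  have hvτ : v τ = 1 := by
    have : v (τ ^ 2) = 1 := by
      rw [hτ2, ← hβ]
      apply v.map_add_eq_of_lt_left
      rw [hβ, map_mul]
      exact lt_of_le_of_lt (mul_le_of_le_one_left' h4) hsm
    rw [map_pow] at this
    exact (pow_eq_one_iff_of_nonneg zero_le (by norm_num)).mp this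
  have ht2 : t ^ 2 + W.a₁ * t = W.a₂ + 3 * e + (ξ + κ / ξ) := by
    have hb : β = W.a₁ ^ 2 + 4 * W.a₂ + 12 * e := by rw [hc.c1, WeierstrassCurve.b₂]
    have e1 : 4 * (t ^ 2 + W.a₁ * t) = τ ^ 2 - W.a₁ ^ 2 := by
      rw [htdef]; field_simp; ring
    have h4' : (4 : K) ≠ 0 := by
      have : (4 : K) = 2 * 2 := by norm_num
      rw [this]; exact mul_ne_zero h2 h2
    apply mul_left_cancel₀ h4'
    rw [e1, hτ2, hb]; ring
  have hvt : v t ≤ 1 := by
    by_contra hlt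
    rw [not_le] at hlt
    have hR : v (W.a₂ + 3 * e + (ξ + κ / ξ)) ≤ 1 := by
      refine v.map_add_le (v.map_add_le ha₂ ?_) hsm.le
      rw [map_mul]; exact mul_le_one' h3' he
    have hlt2 : v (W.a₁ * t) < v (t ^ 2) := by
      rw [map_mul, map_pow, sq]
      exact mul_lt_mul_of_pos_right (lt_of_le_of_lt ha₁ hlt) (lt_trans zero_lt_one hlt)
    have : v (t ^ 2 + W.a₁ * t) = v (t ^ 2) := v.map_add_eq_of_lt_left hlt2
    rw [ht2, map_pow] at this
    rw [this] at hR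
    exact absurd (one_lt_pow₀ hlt (by norm_num)) (not_lt.mpr hR)
  have hclose : v (σ t - t) < 1 := hI.close t hvt
  have hσξ : xc (s P) - e = σ ξ + δ := by
    rw [hI.xc_map, hξdef, map_sub, hδdef]; ring
  have hδκ : v δ ≤ v 4 * v κ := by rw [← map_mul]; exact hσe
  have hδξ : v δ < v ξ := lt_of_le_of_lt (hδκ.trans (mul_le_of_le_one_left' h4)) h1
  have hvξ' : v (σ ξ + δ) = v ξ := by
    rw [← hI.val ξ]
    apply v.map_add_eq_of_lt_left
    rw [hI.val]; exact hδξ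
  have hσt : σ t - t = (σ τ - τ) / 2 := by
    rw [htdef, map_div₀, map_sub, hI.fix_a₁, map_ofNat]; ring
  have hσsum : σ τ + τ = 2 * (τ + (σ t - t)) := by
    rw [hσt]; field_simp; ring
  have hvsum : v (σ τ + τ) = v 2 := by
    rw [hσsum, map_mul]
    have : v (τ + (σ t - t)) = 1 := by
      rw [← hvτ]; apply v.map_add_eq_of_lt_left; rw [hvτ]; exact hclose
    rw [this, mul_one]
  refine Fermat.Agent.S13.Loc.same_branch v hc h2 hP (hI.ne_zero P hP) hξ0 (by rw [hσξ, hvξ']) ?_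
  rw [hσξ, hI.yc_map, hvξ']
  have e5 : σ (yc P) * ξ + yc P * (σ ξ + δ) = (σ τ + τ) * (ξ * σ ξ) + τ * ξ * δ := by
    have hσξ0 : σ ξ ≠ 0 := by
      rw [← v.ne_zero_iff, hI.val]; exact hvξ.ne'
    rw [hτdef, map_div₀]; field_simp; ring
  have hfirst : v ((σ τ + τ) * (ξ * σ ξ)) = v 2 * (v ξ * v ξ) := by
    rw [map_mul, hvsum, map_mul, hI.val]
  have hsecond : v (τ * ξ * δ) < v 2 * (v ξ * v ξ) := by
    rw [map_mul, map_mul, hvτ, one_mul]
    have e4 : v (4 : K) = v 2 * v 2 := by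
      rw [← map_mul]; norm_num
    calc v ξ * v δ ≤ v ξ * (v 4 * v κ) := mul_le_mul_right hδκ _
      _ < v ξ * (v 4 * v ξ) := by
          apply mul_lt_mul_of_pos_left _ hvξ
          apply mul_lt_mul_of_pos_left h1
          rw [e4]; exact mul_pos hv2 hv2
      _ = v 4 * (v ξ * v ξ) := by rw [mul_left_comm]
      _ ≤ v 2 * (v ξ * v ξ) := by
          apply mul_le_mul_left
          rw [e4]; exact mul_le_of_le_one_left' h2'
  rw [e5, ← hfirst]
  apply v.map_add_eq_of_lt_left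
  rw [hfirst]; exact hsecond

theorem sq_mult' {σ : K →+* K} {s : W.Point →+ W.Point} (hI : Inert v W σ s)
    (hc : Centre W e κ β) (h2 : (2 : K) ≠ 0) (hσe : v (σ e - e) ≤ v (4 * κ))
    (ha₁ : v W.a₁ ≤ 1) (ha₂ : v W.a₂ ≤ 1) (ha₃ : v W.a₃ ≤ 1) (ha₄ : v W.a₄ ≤ 1)
    (ha₆ : v W.a₆ ≤ 1) (he : v e ≤ 1) (hκ : v κ < 1) (hβ : v β = 1)
    {n : ℕ} (hn : Odd n) {Q : W.Point} (hQ : n • Q = 0) :
    InE1 v (s (s Q - Q) - (s Q - Q)) := by
  have hb₂ := v_b₂_le v ha₁ ha₂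
  have hb₄ := v_b₄_le v ha₁ ha₃ ha₄
  have hb₆ := v_b₆_le v ha₃ ha₆
  have hb₈ := v_b₈_le v ha₁ ha₂ ha₃ ha₄ ha₆
  by_cases h0 : InE0 v e Q
  · have h1 := hI.sub_inE1_of_inE0 v hc ha₁ ha₂ ha₃ ha₄ ha₆ he hκ hn hQ h0
    exact inE1_sub v hb₂ hb₄ hb₆ hb₈ (hI.inE1 v h1) h1
  · obtain ⟨h1, h3⟩ := kappa_lt_of_not_inE0 v hc hκ hβ.le hn hQ h0
    have hQ0 : Q ≠ 0 := fun h => h0 (Or.inl h)
    have hR := same_branch' v hI hc h2 hσe ha₁ ha₂ he hβ hQ0 h1 h3
    have hnR : n • (s Q - Q) = 0 := by rw [smul_sub, ← map_nsmul, hQ, map_zero, sub_zero]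
    exact hI.sub_inE1_of_inE0 v hc ha₁ ha₂ ha₃ ha₄ ha₆ he hκ hn hnR hR

end Fermat.Agent.S58.EC
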