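/-
S58, task EC-Centre: existence of a centre `(e, κ, β)` at the node, for a curve with multiplicative reduction
(`v Δ < 1`, `v c₄ = 1`, integral coefficients), over an algebraically closed field `K` with `2 ≠ 0`; ANY residue characteristic.

`S05.Centre W e κ β` :  `β = b₂ + 12e`, `2κ = b₄ + e b₂ + 6e²`, `D2(e) := 4e³ + b₂e² + 2b₄e + b₆ = 0`, `b₈ + 3e b₆ + 3e²b₄ + e³b₂ + 3e⁴ = -κ²`.

MATH.
(0) For ANY root `e` of `D2`, `κ := (b₄ + e b₂ + 6e²)/2`, `β := b₂ + 12e` form a `Centre`: the last relation follows from `4b₈ = b₂b₆ - b₄²` (`WeierstrassCurve.b_relation`) and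
   `16 ψ₃ = 2 D2 D2'' - D2'²`, `D2'(e) = 4κ`.  Moreover `c₄ = β² - 48κ` and `Δ = κ² (β² - 64κ)` (polynomial identities modulo the relations).
(1) `κ` is integral if `e` is: `η := (a₁e + a₃)/2` satisfies `η² = -(e³ + a₂e² + a₄e + a₆)` (because `D2(x) = (a₁x+a₃)² + 4(x³+a₂x²+a₄x+a₆)`), so `v η ≤ 1`, and `κ = a₁η + a₄ + 2a₂e + 3e²`.
(2) ROOT NEAR (`exists_root_near`): `p = C a * ∏ (X - rᵢ)` (`IsAlgClosed.splits`, `Polynomial.eq_prod_roots_of_splits_id` ...), so `v (p(x₀)) = v a * ∏ v (x₀ - rᵢ)`.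
(3) `v 2 = 1` (odd residue characteristic): `x₀ := (18b₆ - b₂b₄)/c₄` is integral and
      `D2'(x₀) * c₄² = -144 Δ`,   `D2(x₀) * c₄² = -4 (12x₀ + b₂) Δ`      (`field_simp; ring` after eliminating `b₈` with `b_relation`);
   so `v (D2 x₀) < 1 = v 4`: there is a root `e` with `v (x₀ - e) < 1`; `e` is integral; `4κ = D2'(e) = D2'(x₀) + (e - x₀) * (integral)` so `v κ < 1`.
(4) `v 2 < 1`: `b₂² = c₄ + 24b₄` so `v b₂ = 1`.  Let `x₀` be a root of `b₂X² + 2b₄X + b₆`; it is integral (`v x₀ > 1` is impossible: `v (b₂x₀²) = (v x₀)²` dominates).  `D2(x₀) = 4x₀³`, `v (D2 x₀) ≤ v 4`: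
   there is a root `e` with `v (x₀ - e) ≤ 1`; `e` is integral, `κ` integral by (1), `β = b₂ + 12e` is a unit, `v (β² - 64κ) = 1`, so `(v κ)² = v Δ < 1`.
(5) in both cases `β² = c₄ + 48κ` has valuation `1`.
-/
import Mathlib
import Fermat.Agent.S05.Core

set_option autoImplicit false

namespace Fermat.Agent.S58.EC

open WeierstrassCurve WeierstrassCurve.Affine Fermat.Agent.S05 Polynomial

variable {K : Type*} [Field K]
variable {Γ₀ : Type*} [LinearOrderedCommGroupWithZero Γ₀] (v : Valuation K Γ₀)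

private theorem one_le_prod_aux (x₀ : K) (s : Multiset K) (h : ∀ r ∈ s, 1 ≤ v (x₀ - r)) :
    1 ≤ v (s.map (x₀ - ·)).prod := by
  induction s using Multiset.induction_on with
  | empty => simp
  | cons a t ih =>
    rw [Multiset.map_cons, Multiset.prod_cons, map_mul]
    exact one_le_mul (h a (Multiset.mem_cons_self a t))
      (ih (fun r hr => h r (Multiset.mem_cons_of_mem hr)))

private theorem one_lt_prod_aux (x₀ : K) (s : Multiset K) (hs : s ≠ 0)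
    (h : ∀ r ∈ s, 1 < v (x₀ - r)) : 1 < v (s.map (x₀ - ·)).prod := by
  obtain ⟨a, ha⟩ := Multiset.exists_mem_of_ne_zero hs
  obtain ⟨t, rfl⟩ := Multiset.exists_cons_of_mem ha
  rw [Multiset.map_cons, Multiset.prod_cons, map_mul]
  have h1 := one_le_prod_aux v x₀ t (fun r hr => (h r (Multiset.mem_cons_of_mem hr)).le)
  exact lt_of_lt_of_le (h a ha) (le_mul_of_one_le_right' h1)

theorem exists_root_near [IsAlgClosed K] (p : K[X]) (hp : 0 < p.natDegree) (x₀ : K) :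
    (v (p.eval x₀) < v p.leadingCoeff → ∃ r, p.eval r = 0 ∧ v (x₀ - r) < 1) ∧
    (v (p.eval x₀) ≤ v p.leadingCoeff → ∃ r, p.eval r = 0 ∧ v (x₀ - r) ≤ 1) := by
  have hsp : p.Splits := IsAlgClosed.splits p
  have hp0 : p ≠ 0 := by
    rintro rfl
    simp at hp
  have hlc : v p.leadingCoeff ≠ 0 := (Valuation.ne_zero_iff v).2 (leadingCoeff_ne_zero.2 hp0)
  have hev := hsp.eval_eq_prod_roots x₀
  have hroot : ∀ r ∈ p.roots, p.eval r = 0 := fun r hr => (mem_roots hp0).1 hr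
  constructor
  · intro h
    by_contra hcon
    push Not at hcon
    have h1 := one_le_prod_aux v x₀ p.roots (fun r hr => hcon r (hroot r hr))
    rw [hev, map_mul] at h
    exact absurd (le_mul_of_one_le_right' h1) (not_le.2 h)
  · intro h
    by_contra hcon
    push Not at hcon
    have hne : p.roots ≠ 0 := by
      intro h0
      have := hsp.natDegree_eq_card_roots
      rw [h0, Multiset.card_zero] at this
      omega
    have h1 := one_lt_prod_aux v x₀ p.roots hne (fun r hr => hcon r (hroot r hr))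
    rw [hev, map_mul] at h
    have h2 : v p.leadingCoeff * 1 < v p.leadingCoeff * v (p.roots.map (x₀ - ·)).prod :=
      (mul_lt_mul_iff_right₀ (zero_lt_iff.2 hlc)).2 h1
    rw [mul_one] at h2
    exact absurd h (not_le.2 h2)

theorem centre_of_root (W : Affine K) (h2 : (2 : K) ≠ 0) {e : K}
    (he : 4 * e ^ 3 + W.b₂ * e ^ 2 + 2 * W.b₄ * e + W.b₆ = 0) :
    Centre W e ((W.b₄ + e * W.b₂ + 6 * e ^ 2) / 2) (W.b₂ + 12 * e) := by
  refine ⟨rfl, mul_div_cancel₀ _ h2, he, ?_⟩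
  have h4 : (4 : K) ≠ 0 := by
    have : (4 : K) = 2 * 2 := by norm_num
    rw [this]
    exact mul_ne_zero h2 h2
  apply mul_left_cancel₀ h4
  have h1 : 4 * ((W.b₄ + e * W.b₂ + 6 * e ^ 2) / 2) ^ 2 = (W.b₄ + e * W.b₂ + 6 * e ^ 2) ^ 2 := by
    field_simp
    ring
  have h3 := W.b_relation
  linear_combination (W.b₂ + 12 * e) * he + h3 + h1

theorem Centre_c₄ {W : Affine K} {e κ β : K} (hc : Centre W e κ β) : W.c₄ = β ^ 2 - 48 * κ := by
  rw [WeierstrassCurve.c₄, hc.c1]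
  linear_combination 24 * hc.c2

theorem Centre_Δ {W : Affine K} {e κ β : K} (hc : Centre W e κ β) :
    W.Δ = κ ^ 2 * (β ^ 2 - 64 * κ) := by
  have e2 : W.b₂ = β - 12 * e := by linear_combination -hc.c1
  have e4 : W.b₄ = 2 * κ - e * W.b₂ - 6 * e ^ 2 := by linear_combination -hc.c2
  have e6 : W.b₆ = -(4 * e ^ 3 + W.b₂ * e ^ 2 + 2 * W.b₄ * e) := by linear_combination hc.c3
  have e8 : W.b₈ = - κ ^ 2 - (3 * e * W.b₆ + 3 * e ^ 2 * W.b₄ + e ^ 3 * W.b₂ + 3 * e ^ 4) := by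
    linear_combination hc.c4
  rw [WeierstrassCurve.Δ, e8, e6, e4, e2]
  ring

private theorem four_ne_zero' (h2 : (2 : K) ≠ 0) : (4 : K) ≠ 0 := by
  have : (4 : K) = 2 * 2 := by norm_num
  rw [this]
  exact mul_ne_zero h2 h2

private theorem kappa_int (W : Affine K) (h2 : (2 : K) ≠ 0)
    (A1 : W.a₁ ∈ v.integer) (A2 : W.a₂ ∈ v.integer)
    (A4 : W.a₄ ∈ v.integer) (A6 : W.a₆ ∈ v.integer) {e : K} (hint : e ∈ v.integer)
    (he : 4 * e ^ 3 + W.b₂ * e ^ 2 + 2 * W.b₄ * e + W.b₆ = 0) :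
    (W.b₄ + e * W.b₂ + 6 * e ^ 2) / 2 ∈ v.integer := by
  have h4 : (4 : K) ≠ 0 := four_ne_zero' h2
  obtain ⟨η, h2η⟩ : ∃ η : K, 2 * η = W.a₁ * e + W.a₃ :=
    ⟨(W.a₁ * e + W.a₃) / 2, mul_div_cancel₀ _ h2⟩
  have hη2 : η ^ 2 = -(e ^ 3 + W.a₂ * e ^ 2 + W.a₄ * e + W.a₆) := by
    apply mul_left_cancel₀ h4
    rw [WeierstrassCurve.b₂, WeierstrassCurve.b₄, WeierstrassCurve.b₆] at he
    linear_combination (2 * η + W.a₁ * e + W.a₃) * h2η + he
  have hηint : η ∈ v.integer := by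
    rw [Valuation.mem_integer_iff, ← pow_le_one_iff (two_ne_zero), ← map_pow, hη2,
      ← Valuation.mem_integer_iff]
    clear hη2 h2η he
    aesop
  have hκ : (W.b₄ + e * W.b₂ + 6 * e ^ 2) / 2 = W.a₁ * η + W.a₄ + 2 * W.a₂ * e + 3 * e ^ 2 := by
    rw [div_eq_iff h2, WeierstrassCurve.b₂, WeierstrassCurve.b₄]
    linear_combination (-W.a₁) * h2η
  rw [hκ]
  clear hη2 h2η he hκ
  aesop

private theorem val_mul_lt (u x : K) (hu : u ∈ v.integer) (hx : v x < 1) : v (u * x) < 1 := by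
  rw [map_mul]
  exact lt_of_le_of_lt (mul_le_of_le_one_left' hu) hx

/-- the 2-division polynomial. -/
private noncomputable def P2 (W : Affine K) : K[X] :=
  C 4 * X ^ 3 + C W.b₂ * X ^ 2 + C (2 * W.b₄) * X + C W.b₆

private theorem P2_deg (W : Affine K) (h2 : (2 : K) ≠ 0) : 0 < (P2 W).natDegree := by
  rw [P2, natDegree_cubic (four_ne_zero' h2)]; norm_num

private theorem P2_lc (W : Affine K) (h2 : (2 : K) ≠ 0) : (P2 W).leadingCoeff = 4 :=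
  leadingCoeff_cubic (four_ne_zero' h2)

private theorem P2_eval (W : Affine K) (x : K) :
    (P2 W).eval x = 4 * x ^ 3 + W.b₂ * x ^ 2 + 2 * W.b₄ * x + W.b₆ := by
  simp [P2]

private theorem centre_fin (W : Affine K) (h2 : (2 : K) ≠ 0) (hc₄ : v W.c₄ = 1)
    (e : K) (hint : e ∈ v.integer) (he : 4 * e ^ 3 + W.b₂ * e ^ 2 + 2 * W.b₄ * e + W.b₆ = 0)
    (hκ : v ((W.b₄ + e * W.b₂ + 6 * e ^ 2) / 2) < 1) :
    ∃ e κ β : K, Centre W e κ β ∧ v e ≤ 1 ∧ v κ < 1 ∧ v β = 1 := by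
  have hc := centre_of_root W h2 he
  refine ⟨e, _, _, hc, hint, hκ, ?_⟩
  have h1 := Centre_c₄ hc
  have h2' : (W.b₂ + 12 * e) ^ 2 = W.c₄ + 48 * ((W.b₄ + e * W.b₂ + 6 * e ^ 2) / 2) := by
    linear_combination -h1
  have h3 : v (48 * ((W.b₄ + e * W.b₂ + 6 * e ^ 2) / 2)) < 1 :=
    val_mul_lt v _ _ (ofNat_mem v.integer 48) hκ
  have h4' : v ((W.b₂ + 12 * e) ^ 2) = 1 := by
    rw [h2', Valuation.map_add_eq_of_lt_left v (by rw [hc₄]; exact h3), hc₄]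
  rw [map_pow] at h4'
  exact sq_eq_one.mp h4'

private theorem centre_even [IsAlgClosed K] (W : Affine K) (h2 : (2 : K) ≠ 0)
    (A1 : W.a₁ ∈ v.integer) (A2 : W.a₂ ∈ v.integer)
    (A4 : W.a₄ ∈ v.integer) (A6 : W.a₆ ∈ v.integer)
    (B4 : W.b₄ ∈ v.integer) (B6 : W.b₆ ∈ v.integer)
    (hΔ : v W.Δ < 1) (hc₄ : v W.c₄ = 1) (hlt : v 2 < 1) :
    ∃ e κ β : K, Centre W e κ β ∧ v e ≤ 1 ∧ v κ < 1 ∧ v β = 1 := by
  have hb2sq : W.b₂ ^ 2 = W.c₄ + 2 * (12 * W.b₄) := by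
    rw [WeierstrassCurve.c₄]; ring
  have hmul2 : ∀ u : K, u ∈ v.integer → v (2 * u) < 1 := by
    intro u hu
    rw [mul_comm]
    exact val_mul_lt v u 2 hu hlt
  have hvb2 : v W.b₂ = 1 := by
    have : v (W.b₂ ^ 2) = 1 := by
      rw [hb2sq, Valuation.map_add_eq_of_lt_left v
        (by rw [hc₄]; exact hmul2 _ (mul_mem (ofNat_mem v.integer 12) B4)), hc₄]
    rw [map_pow] at this
    exact sq_eq_one.mp this
  have hb2ne : W.b₂ ≠ 0 := by
    intro h0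
    rw [h0, map_zero] at hvb2
    exact zero_ne_one hvb2
  obtain ⟨x₀, hx₀⟩ := IsAlgClosed.exists_root
    (C W.b₂ * X ^ 2 + C (2 * W.b₄) * X + C W.b₆ : K[X])
    (by rw [degree_quadratic hb2ne]; norm_num)
  have hx₀' : W.b₂ * x₀ ^ 2 + 2 * W.b₄ * x₀ + W.b₆ = 0 := by
    have := hx₀
    simpa [IsRoot.def] using this
  have hx₀int : x₀ ∈ v.integer := by
    rw [Valuation.mem_integer_iff]
    by_contra hcon
    push Not at hcon
    have e1 : W.b₂ * x₀ ^ 2 = -(2 * W.b₄ * x₀ + W.b₆) := by linear_combination hx₀'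
    have e2 : v (W.b₂ * x₀ ^ 2) = v x₀ * v x₀ := by
      rw [map_mul, hvb2, one_mul, map_pow, sq]
    have e3 : v (-(2 * W.b₄ * x₀ + W.b₆)) ≤ v x₀ := by
      rw [Valuation.map_neg]
      apply Valuation.map_add_le
      · rw [map_mul]
        have : (2 * W.b₄) ∈ v.integer := mul_mem (ofNat_mem v.integer 2) B4
        exact mul_le_of_le_one_left' this
      · exact le_trans B6 hcon.le
    rw [← e1, e2] at e3
    have hpos : 0 < v x₀ := lt_trans zero_lt_one hcon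
    have e4 : v x₀ * 1 < v x₀ * v x₀ := (mul_lt_mul_iff_right₀ hpos).2 hcon
    rw [mul_one] at e4
    exact absurd e3 (not_le.2 e4)
  have hD : (P2 W).eval x₀ = 4 * x₀ ^ 3 := by
    rw [P2_eval]; linear_combination hx₀'
  obtain ⟨e, he, hxe⟩ := (exists_root_near v (P2 W) (P2_deg W h2) x₀).2 (by
    rw [hD, P2_lc W h2, map_mul]
    have : x₀ ^ 3 ∈ v.integer := pow_mem hx₀int 3
    exact mul_le_of_le_one_right' this)
  rw [P2_eval] at he
  have heint : e ∈ v.integer := by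
    have h1 : e = x₀ - (x₀ - e) := by ring
    rw [h1]
    exact sub_mem hx₀int hxe
  have hκint := kappa_int v W h2 A1 A2 A4 A6 heint he
  apply centre_fin v W h2 hc₄ e heint he
  have hc := centre_of_root W h2 he
  have hΔ' := Centre_Δ hc
  have hβ : v (W.b₂ + 12 * e) = 1 := by
    have h1 : (12 : K) * e = 2 * (6 * e) := by ring
    rw [h1, Valuation.map_add_eq_of_lt_left v
      (by rw [hvb2]; exact hmul2 _ (mul_mem (ofNat_mem v.integer 6) heint)), hvb2]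
  have hu : v ((W.b₂ + 12 * e) ^ 2 - 64 * ((W.b₄ + e * W.b₂ + 6 * e ^ 2) / 2)) = 1 := by
    have h1 : (64 : K) * ((W.b₄ + e * W.b₂ + 6 * e ^ 2) / 2)
        = 2 * (32 * ((W.b₄ + e * W.b₂ + 6 * e ^ 2) / 2)) := by ring
    have h3 : v ((W.b₂ + 12 * e) ^ 2) = 1 := by rw [map_pow, hβ, one_pow]
    rw [h1, Valuation.map_sub_eq_of_lt_left v
      (by rw [h3]; exact hmul2 _ (mul_mem (ofNat_mem v.integer 32) hκint)), h3]
  rw [hΔ', map_mul, hu, mul_one, map_pow] at hΔ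
  exact (pow_lt_one_iff two_ne_zero).1 hΔ

private theorem odd_I1 (W : Affine K) (x₀ : K) (hx : x₀ * W.c₄ = 18 * W.b₆ - W.b₂ * W.b₄) :
    (12 * x₀ ^ 2 + 2 * W.b₂ * x₀ + 2 * W.b₄) * W.c₄ ^ 2 = -144 * W.Δ := by
  have hrel := W.b_relation
  have hc4 : W.c₄ = W.b₂ ^ 2 - 24 * W.b₄ := rfl
  rw [WeierstrassCurve.Δ]
  generalize W.c₄ = c4 at *
  generalize W.b₂ = b2 at *
  generalize W.b₄ = b4 at *
  generalize W.b₆ = b6 at *
  generalize W.b₈ = b8 at *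
  subst hc4
  linear_combination (12 * (x₀ * (b2 ^ 2 - 24 * b4) + (18 * b6 - b2 * b4))
    + 2 * b2 * (b2 ^ 2 - 24 * b4)) * hx - 36 * b2 ^ 2 * hrel

private theorem odd_I2 (W : Affine K) (hc4ne : W.c₄ ≠ 0) (x₀ : K)
    (hx : x₀ * W.c₄ = 18 * W.b₆ - W.b₂ * W.b₄) :
    (4 * x₀ ^ 3 + W.b₂ * x₀ ^ 2 + 2 * W.b₄ * x₀ + W.b₆) * W.c₄ ^ 2
        = -4 * (12 * x₀ + W.b₂) * W.Δ := by
  have hrel := W.b_relation
  have hc4 : W.c₄ = W.b₂ ^ 2 - 24 * W.b₄ := rfl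
  apply mul_right_cancel₀ hc4ne
  rw [WeierstrassCurve.Δ]
  generalize W.c₄ = c4 at *
  generalize W.b₂ = b2 at *
  generalize W.b₄ = b4 at *
  generalize W.b₆ = b6 at *
  generalize W.b₈ = b8 at *
  subst hc4
  linear_combination (4 * ((x₀ * (b2 ^ 2 - 24 * b4)) ^ 2
      + (x₀ * (b2 ^ 2 - 24 * b4)) * (18 * b6 - b2 * b4) + (18 * b6 - b2 * b4) ^ 2)
    + b2 * (b2 ^ 2 - 24 * b4) * (x₀ * (b2 ^ 2 - 24 * b4) + (18 * b6 - b2 * b4))
    + 2 * b4 * (b2 ^ 2 - 24 * b4) ^ 2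
    + 48 * (-b2 ^ 2 * b8 - 8 * b4 ^ 3 - 27 * b6 ^ 2 + 9 * b2 * b4 * b6)) * hx
    - (12 * (18 * b6 - b2 * b4) + b2 * (b2 ^ 2 - 24 * b4)) * b2 ^ 2 * hrel

private theorem centre_odd [IsAlgClosed K] (W : Affine K) (h2 : (2 : K) ≠ 0)
    (B2 : W.b₂ ∈ v.integer) (B4 : W.b₄ ∈ v.integer) (B6 : W.b₆ ∈ v.integer)
    (hΔ : v W.Δ < 1) (hc₄ : v W.c₄ = 1) (heq : v 2 = 1) :
    ∃ e κ β : K, Centre W e κ β ∧ v e ≤ 1 ∧ v κ < 1 ∧ v β = 1 := by
  have hv4 : v 4 = 1 := by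
    have : (4 : K) = 2 * 2 := by norm_num
    rw [this, map_mul, heq, one_mul]
  have hc4ne : W.c₄ ≠ 0 := by
    intro h0
    rw [h0, map_zero] at hc₄
    exact zero_ne_one hc₄
  obtain ⟨x₀, hx⟩ : ∃ x₀ : K, x₀ * W.c₄ = 18 * W.b₆ - W.b₂ * W.b₄ :=
    ⟨(18 * W.b₆ - W.b₂ * W.b₄) / W.c₄, div_mul_cancel₀ _ hc4ne⟩
  have hx₀int : x₀ ∈ v.integer := by
    rw [Valuation.mem_integer_iff]
    have h1 := congrArg v hx
    rw [map_mul, hc₄, mul_one] at h1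
    rw [h1, ← Valuation.mem_integer_iff]
    exact sub_mem (mul_mem (ofNat_mem v.integer 18) B6) (mul_mem B2 B4)
  have I1 := congrArg v (odd_I1 W x₀ hx)
  have I2 := congrArg v (odd_I2 W hc4ne x₀ hx)
  rw [map_mul, map_pow, hc₄, one_pow, mul_one] at I1 I2
  have J1 : v (12 * x₀ ^ 2 + 2 * W.b₂ * x₀ + 2 * W.b₄) < 1 := by
    rw [I1]
    exact val_mul_lt v _ _ (neg_mem (ofNat_mem v.integer 144)) hΔ
  have J2 : v (4 * x₀ ^ 3 + W.b₂ * x₀ ^ 2 + 2 * W.b₄ * x₀ + W.b₆) < 1 := by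
    rw [I2]
    exact val_mul_lt v _ _ (mul_mem (neg_mem (ofNat_mem v.integer 4))
      (add_mem (mul_mem (ofNat_mem v.integer 12) hx₀int) B2)) hΔ
  obtain ⟨e, he, hxe⟩ := (exists_root_near v (P2 W) (P2_deg W h2) x₀).1 (by
    rw [P2_eval, P2_lc W h2, hv4]
    exact J2)
  rw [P2_eval] at he
  have heint : e ∈ v.integer := by
    have h1 : e = x₀ - (x₀ - e) := by ring
    rw [h1]
    exact sub_mem hx₀int hxe.le
  apply centre_fin v W h2 hc₄ e heint he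
  rw [map_div₀, heq, div_one]
  have h1 : v (W.b₄ + e * W.b₂ + 6 * e ^ 2) = v (2 * (W.b₄ + e * W.b₂ + 6 * e ^ 2)) := by
    rw [map_mul, heq, one_mul]
  have h3 : 2 * (W.b₄ + e * W.b₂ + 6 * e ^ 2) = (12 * x₀ ^ 2 + 2 * W.b₂ * x₀ + 2 * W.b₄)
      + (-(12 * (e + x₀) + 2 * W.b₂)) * (x₀ - e) := by ring
  rw [h1, h3]
  apply Valuation.map_add_lt v J1
  exact val_mul_lt v _ _ (neg_mem (add_mem (mul_mem (ofNat_mem v.integer 12)
    (add_mem heint hx₀int)) (mul_mem (ofNat_mem v.integer 2) B2))) hxe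

theorem exists_centre [IsAlgClosed K] (W : Affine K) (h2 : (2 : K) ≠ 0)
    (ha₁ : v W.a₁ ≤ 1) (ha₂ : v W.a₂ ≤ 1) (ha₃ : v W.a₃ ≤ 1) (ha₄ : v W.a₄ ≤ 1)
    (ha₆ : v W.a₆ ≤ 1) (hΔ : v W.Δ < 1) (hc₄ : v W.c₄ = 1) :
    ∃ e κ β : K, Centre W e κ β ∧ v e ≤ 1 ∧ v κ < 1 ∧ v β = 1 := by
  have A1 : W.a₁ ∈ v.integer := ha₁
  have A2 : W.a₂ ∈ v.integer := ha₂
  have A3 : W.a₃ ∈ v.integer := ha₃
  have A4 : W.a₄ ∈ v.integer := ha₄
  have A6 : W.a₆ ∈ v.integer := ha₆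
  have B2 : W.b₂ ∈ v.integer := by
    rw [WeierstrassCurve.b₂]
    exact add_mem (pow_mem A1 2) (mul_mem (ofNat_mem v.integer 4) A2)
  have B4 : W.b₄ ∈ v.integer := by
    rw [WeierstrassCurve.b₄]
    exact add_mem (mul_mem (ofNat_mem v.integer 2) A4) (mul_mem A1 A3)
  have B6 : W.b₆ ∈ v.integer := by
    rw [WeierstrassCurve.b₆]
    exact add_mem (pow_mem A3 2) (mul_mem (ofNat_mem v.integer 4) A6)
  have hv2 : v 2 ≤ 1 := ofNat_mem v.integer 2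
  rcases hv2.lt_or_eq with hlt | heq
  · exact centre_even v W h2 A1 A2 A4 A6 B4 B6 hΔ hc₄ hlt
  · exact centre_odd v W h2 B2 B4 B6 hΔ hc₄ heq

end Fermat.Agent.S58.EC
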