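/-
S58, task EC-Unip: semistable reduction at `q`: `(σ - 1)² = 0` on `E[m]` (`m` odd, prime to `q`) for `σ` in an inertia group at `q`.

MATH.  Good reduction (`q ∤ Δ`): `smul_eq_of_inertia_of_good`.  Multiplicative reduction (`q ∣ Δ`, `q ∤ c₄`): `V := (EQ W)⁄Qb`, `v := A.valuation`; the coefficients are integers so `v aᵢ ≤ 1`,
`v Δ < 1`, `v c₄ = 1` (`S05.val_int`, `S13.Loc.val_algebraMap_int ...`: see how `Fermat/Agent/S13/LocFrey.lean` does it for the Frey curve).  `exists_centre` gives `(e, κ, β)`;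
`S13.Loc.inert_of_mem_inertia (EQ W) A σ hσ : Inert ...`; `σ` fixes `b₂, b₄, b₆` (rational numbers): `val_sigma_sub_le`; `sq_mult'` gives
`InE1 v (σ•(σ•Q - Q) - (σ•Q - Q))`; this point is killed by `m`, `v (m : Qb) = 1`, so it is `0` by `S05.T1` (cf. `S13.Loc.D1_eq_bot`).
-/
import Mathlib
import Fermat.Agent.S58.Defs
import Fermat.Agent.S58.EC.Frob
import Fermat.Agent.S58.EC.Branch
import Fermat.Agent.S58.EC.Centre
import Fermat.Agent.S13.LocFrey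

set_option autoImplicit false

namespace Fermat.Agent.S58.EC

open WeierstrassCurve WeierstrassCurve.Affine
open Fermat.Agent.S31 (Qb GQ)
open Fermat.Agent.S05 Fermat.Agent.S13.Loc

theorem quadRel_inertia (W : WeierstrassCurve ℤ) {q : ℕ} (hq : q.Prime)
    (hΔ : W.Δ ≠ 0) (hss : (q : ℤ) ∣ W.Δ → ¬ (q : ℤ) ∣ W.c₄) {m : ℕ} (hm : Odd m) (hqm : ¬ q ∣ m)
    (A : ValuationSubring Qb) (hA : A.LiesOverPrime q) (σ : GQ) (hσ : σ ∈ A.inertiaSubgroupIn ℚ) :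
    QuadRel W m σ 2 1 := by
  intro Q hQ
  by_cases hqΔ : (q : ℤ) ∣ W.Δ
  · -- multiplicative reduction
    have hc4 := hss hqΔ
    have ea₁ : ((EQ W)⁄Qb).a₁ = algebraMap ℚ Qb ((W.a₁ : ℤ) : ℚ) := rfl
    have ea₂ : ((EQ W)⁄Qb).a₂ = algebraMap ℚ Qb ((W.a₂ : ℤ) : ℚ) := rfl
    have ea₃ : ((EQ W)⁄Qb).a₃ = algebraMap ℚ Qb ((W.a₃ : ℤ) : ℚ) := rfl
    have ea₄ : ((EQ W)⁄Qb).a₄ = algebraMap ℚ Qb ((W.a₄ : ℤ) : ℚ) := rfl
    have ea₆ : ((EQ W)⁄Qb).a₆ = algebraMap ℚ Qb ((W.a₆ : ℤ) : ℚ) := rfl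
    have eΔ : ((EQ W)⁄Qb).Δ = algebraMap ℚ Qb ((W.Δ : ℤ) : ℚ) :=
      (WeierstrassCurve.map_Δ ..).trans (congrArg _ (WeierstrassCurve.map_Δ ..))
    have ec₄ : ((EQ W)⁄Qb).c₄ = algebraMap ℚ Qb ((W.c₄ : ℤ) : ℚ) :=
      (WeierstrassCurve.map_c₄ ..).trans (congrArg _ (WeierstrassCurve.map_c₄ ..))
    have ha₁ : A.valuation ((EQ W)⁄Qb).a₁ ≤ 1 := ea₁ ▸ (val_algebraMap_int A hq hA _).1
    have ha₂ : A.valuation ((EQ W)⁄Qb).a₂ ≤ 1 := ea₂ ▸ (val_algebraMap_int A hq hA _).1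
    have ha₃ : A.valuation ((EQ W)⁄Qb).a₃ ≤ 1 := ea₃ ▸ (val_algebraMap_int A hq hA _).1
    have ha₄ : A.valuation ((EQ W)⁄Qb).a₄ ≤ 1 := ea₄ ▸ (val_algebraMap_int A hq hA _).1
    have ha₆ : A.valuation ((EQ W)⁄Qb).a₆ ≤ 1 := ea₆ ▸ (val_algebraMap_int A hq hA _).1
    have hvΔ : A.valuation ((EQ W)⁄Qb).Δ < 1 := by
      rw [eΔ]
      exact (val_algebraMap_int A hq hA _).2.mpr hqΔ
    have hvc₄ : A.valuation ((EQ W)⁄Qb).c₄ = 1 := by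
      rw [ec₄]
      exact val_algebraMap_int_eq_one A hq hA hc4
    have h2ne : (2 : Qb) ≠ 0 := two_ne_zero
    obtain ⟨e, κ, β, hc, he, hκ, hβ⟩ := exists_centre A.valuation ((EQ W)⁄Qb).toAffine h2ne
      ha₁ ha₂ ha₃ ha₄ ha₆ hvΔ hvc₄
    have hI := inert_of_mem_inertia (EQ W) A σ hσ
    have hb₂ : (σ : Qb →+* Qb) ((EQ W)⁄Qb).b₂ = ((EQ W)⁄Qb).b₂ := by
      have e0 : ((EQ W)⁄Qb).b₂ = algebraMap ℚ Qb (EQ W).b₂ := WeierstrassCurve.map_b₂ ..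
      rw [e0]
      exact σ.commutes _
    have hb₄ : (σ : Qb →+* Qb) ((EQ W)⁄Qb).b₄ = ((EQ W)⁄Qb).b₄ := by
      have e0 : ((EQ W)⁄Qb).b₄ = algebraMap ℚ Qb (EQ W).b₄ := WeierstrassCurve.map_b₄ ..
      rw [e0]
      exact σ.commutes _
    have hb₆ : (σ : Qb →+* Qb) ((EQ W)⁄Qb).b₆ = ((EQ W)⁄Qb).b₆ := by
      have e0 : ((EQ W)⁄Qb).b₆ = algebraMap ℚ Qb (EQ W).b₆ := WeierstrassCurve.map_b₆ ..
      rw [e0]
      exact σ.commutes _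
    have hσe := val_sigma_sub_le A.valuation hI hc hb₂ hb₄ hb₆ he hβ
    have hR := sq_mult' A.valuation hI hc h2ne hσe ha₁ ha₂ ha₃ ha₄ ha₆ he hκ hβ hm hQ
    have hmR : m • (galHom (EQ W) σ (galHom (EQ W) σ Q - Q) - (galHom (EQ W) σ Q - Q)) = 0 := by
      rw [nsmul_sub, ← map_nsmul, nsmul_sub, ← map_nsmul, hQ]
      simp
    have hvm : A.valuation ((m : ℕ) : Qb) = 1 := by
      have h1 := val_int A hq hA (m : ℤ)
      have h3 : ¬ (q : ℤ) ∣ (m : ℤ) := by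
        intro h
        exact hqm (by exact_mod_cast h)
      have h4 : A.valuation (((m : ℤ) : Qb)) = 1 :=
        le_antisymm h1.1 (not_lt.mp (fun h => h3 (h1.2.mp h)))
      simpa using h4
    have hT := T1 A.valuation (v_b₂_le _ ha₁ ha₂) (v_b₄_le _ ha₁ ha₃ ha₄) (v_b₆_le _ ha₃ ha₆)
      (v_b₈_le _ ha₁ ha₂ ha₃ ha₄ ha₆) m hvm _ hmR
    have hR0 : galHom (EQ W) σ (galHom (EQ W) σ Q - Q) - (galHom (EQ W) σ Q - Q) = 0 := by
      rcases hR with h | h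
      · exact h
      · exact absurd hT (not_le.mpr h)
    have hR1 : σ • (σ • Q - Q) - (σ • Q - Q) = 0 := hR0
    rw [smul_sub] at hR1
    rw [two_zsmul, one_zsmul, ← hR1]
    abel
  · have hgood : W.IsGoodPrimeFor q := hqΔ
    have h1 := smul_eq_of_inertia_of_good W hq hgood hqm A hA σ hσ Q hQ
    rw [h1, h1, two_zsmul, one_zsmul]
    abel

end Fermat.Agent.S58.EC
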